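import Fermat.Agent.Density.Frobenius

/-!
# Orders in number fields inside `ℂ`

Finitely many embeddings bound finitely many elements, and infinitely many primes have a point over
`ℤ/l`.
-/

set_option autoImplicit false

noncomputable section

open NumberField

namespace Fermat.Agent.DeligneSerre

variable (R : Subalgebra ℤ ℂ) [Module.Finite ℤ R]

/-- A finite Galois extension of `ℚ` in `ℂ` containing `R`. -/
theorem exists_field_containing :
    ∃ L : IntermediateField ℚ ℂ, FiniteDimensional ℚ L ∧ Normal ℚ L ∧ ∀ r : R, (r : ℂ) ∈ L := by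
  classical
  obtain ⟨s, hs⟩ := Module.Finite.fg_top (R := ℤ) (M := R)
  set P : Polynomial ℚ := ∏ x ∈ s, minpoly ℚ (x : ℂ)
  let L : IntermediateField ℚ ℂ := IntermediateField.adjoin ℚ (P.rootSet ℂ)
  have hsf : P.IsSplittingField ℚ L :=
    IntermediateField.adjoin_rootSet_isSplittingField (IsAlgClosed.splits _)
  have hint : ∀ x : R, IsIntegral ℚ (x : ℂ) := fun x =>
    ((Algebra.IsIntegral.isIntegral (R := ℤ) x).map R.val).tower_top
  refine ⟨L, Polynomial.IsSplittingField.finiteDimensional L P,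
    Normal.of_isSplittingField P, fun r => ?_⟩
  have hr : r ∈ Submodule.span ℤ (s : Set R) := by rw [hs]; trivial
  induction hr using Submodule.span_induction with
  | mem x hx =>
    refine IntermediateField.subset_adjoin ℚ _ (Polynomial.mem_rootSet.2 ⟨?_, ?_⟩)
    · exact Finset.prod_ne_zero_iff.2 fun y _ => minpoly.ne_zero (hint y)
    · rw [map_prod]
      exact Finset.prod_eq_zero hx (minpoly.aeval _ _)
  | zero => simp
  | add x y _ _ hx hy => rw [Subalgebra.coe_add]; exact add_mem hx hy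
  | smul c x _ hx =>
    rw [show ((c • x : R) : ℂ) = (c : ℂ) * (x : ℂ) by simp]
    exact mul_mem (intCast_mem L c) hx

/-- Bounded conjugates leave finitely many possibilities. -/
theorem exists_finite_bounded :
    ∃ (ι : Type) (_ : Fintype ι) (τ : ι → R →+* ℂ),
      ∀ c : ℝ, {r : R | ∀ i, Complex.normSq (τ i r) ≤ c}.Finite := by
  obtain ⟨L, hfin, -, hmem⟩ := exists_field_containing R
  have : NumberField L := ⟨⟩
  let incl : R →+* L := R.val.toRingHom.codRestrict L.toSubfield.toSubring hmem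
  refine ⟨L →+* ℂ, inferInstance, fun φ => φ.comp incl, fun c => ?_⟩
  have hfin' := NumberField.Embeddings.finite_of_norm_le L ℂ (max c 1)
  refine Set.Finite.of_finite_image (hfin'.subset ?_)
    (f := fun r => incl r) (fun r _ r' _ h => Subtype.ext (congrArg (fun y : L => (y : ℂ)) h))
  rintro _ ⟨r, hr, rfl⟩
  refine ⟨?_, fun φ => ?_⟩
  · exact (Algebra.IsIntegral.isIntegral r).map incl.toIntAlgHom
  · have h1 : Complex.normSq (φ (incl r)) ≤ c := hr φ
    rw [Complex.normSq_eq_norm_sq] at h1
    rcases le_or_gt ‖φ (incl r)‖ 1 with h | h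
    · exact h.trans (le_max_right _ _)
    · exact ((le_self_pow₀ h.le two_ne_zero).trans h1).trans (le_max_left _ _)

/-- **Primes of degree one.** -/
theorem exists_residueHom (n : ℕ) : ∃ l > n, l.Prime ∧ Nonempty (R →+* ZMod l) := by
  classical
  obtain ⟨L, hfin, hnorm, hmem⟩ := exists_field_containing R
  have : NumberField L := ⟨⟩
  have : IsGalois ℚ L := ⟨⟩
  obtain ⟨l, hl, hlS, h⟩ := Density.exists_prime_forall_frobAt (1 : L ≃ₐ[ℚ] L)
    (Finset.range (n + 1))
  obtain ⟨Q, hQ, hQl⟩ := Density.exists_prime_over L hl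
  obtain ⟨f, hf⟩ := Density.exists_frobAt (hQ := hQ) hl hQl
  obtain ⟨g, hg⟩ := (h Q hQ hQl).2 f hf
  have hf1 : f = 1 := by
    rw [Subgroup.zpowers_one_eq_bot, Subgroup.zpowers_eq_bot] at hg
    simpa using hg
  have : Fact l.Prime := ⟨hl⟩
  have : Finite (𝓞 L ⧸ Q) := Density.finite_residueRing hl hQ hQl
  have : Q.IsMaximal := Ideal.Quotient.maximal_of_isField _ (Finite.isField_of_domain (𝓞 L ⧸ Q))
  let := Ideal.Quotient.field Q
  have h0 : ((l : ℕ) : 𝓞 L ⧸ Q) = 0 := by
    rw [← map_natCast (Ideal.Quotient.mk Q), Ideal.Quotient.eq_zero_iff_mem]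
    exact hQl
  have : CharP (𝓞 L ⧸ Q) l := (CharP.charP_iff_prime_eq_zero hl).2 h0
  have hpow : ∀ x : 𝓞 L ⧸ Q, x ^ l = x := fun x => by
    obtain ⟨y, rfl⟩ := Ideal.Quotient.mk_surjective x
    rw [← map_pow, eq_comm, Ideal.Quotient.eq]
    simpa [hf1] using hf y
  let c : ZMod l →+* 𝓞 L ⧸ Q := ZMod.castHom (dvd_refl l) _
  have hsurj : Function.Surjective c := by
    let := Fintype.ofFinite (𝓞 L ⧸ Q)
    have hX : (Polynomial.X ^ l - Polynomial.X : Polynomial (𝓞 L ⧸ Q)) ≠ 0 :=
      FiniteField.X_pow_card_sub_X_ne_zero _ hl.one_lt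
    have hcard : Fintype.card (𝓞 L ⧸ Q) ≤ l := by
      rw [← FiniteField.X_pow_card_sub_X_natDegree_eq (K' := 𝓞 L ⧸ Q) hl.one_lt]
      refine le_trans ?_ (Polynomial.card_roots' _)
      rw [← Finset.card_univ]
      refine le_trans (Finset.card_le_card fun x _ => ?_) (Multiset.toFinset_card_le _)
      rw [Multiset.mem_toFinset, Polynomial.mem_roots hX]
      simp [hpow x]
    have hinj : Function.Injective c := c.injective
    have := Fintype.card_le_of_injective c hinj
    rw [ZMod.card] at this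
    exact ((Fintype.bijective_iff_injective_and_card c).2
      ⟨hinj, by rw [ZMod.card]; omega⟩).2
  let incl : R →+* 𝓞 L :=
    { toFun := fun r => ⟨⟨(r : ℂ), hmem r⟩, by
        refine (isIntegral_algHom_iff (L.val.restrictScalars ℤ) Subtype.val_injective).1 ?_
        exact (Algebra.IsIntegral.isIntegral r).map R.val⟩
      map_one' := rfl
      map_mul' := fun _ _ => rfl
      map_zero' := rfl
      map_add' := fun _ _ => rfl }
  refine ⟨l, ?_, hl, ⟨(RingEquiv.ofBijective c ⟨c.injective, hsurj⟩).symm.toRingHom.comp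
    ((Ideal.Quotient.mk Q).comp incl)⟩⟩
  by_contra hle
  exact hlS (Finset.mem_range.2 (by omega))

end Fermat.Agent.DeligneSerre
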