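import Fermat.Agent.DeligneSerre.Algebra.Quadratic
import Fermat.Agent.Density.Reps
import Fermat.Prelude.Def_GaloisRep_Residual

/-!
# Mod `l` representations attached to a system of values

`ModRep l N a e`: some nonzero mod `l` representation unramified outside `N l` whose Frobenius
elements satisfy `X² - a_p X + e_p`, together with the determinant character. It gives a semisimple
two-dimensional representation over an algebraic closure.
-/

set_option autoImplicit false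

noncomputable section

open Matrix

namespace Fermat.Agent.DeligneSerre

local notation "ℚbar" => AlgebraicClosure ℚ
local notation "Γ" => AlgebraicClosure ℚ ≃ₐ[ℚ] AlgebraicClosure ℚ

/-- A nonzero mod `l` representation with quadratic Frobenius relations given by `a` and `e`. -/
def ModRep (l : ℕ) [Fact l.Prime] (N : ℕ) (a e : ℕ → ZMod l) : Prop :=
  ∃ (V : Type) (_ : AddCommGroup V) (_ : Module (ZMod l) V),
    FiniteDimensional (ZMod l) V ∧ Nontrivial V ∧
    ∃ (r : Γ →* Module.End (ZMod l) V) (d : Γ →* ZMod l),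
      (∃ L : IntermediateField ℚ ℚbar, FiniteDimensional ℚ L ∧
        ∀ σ : Γ, (∀ x ∈ L, σ x = x) → r σ = 1 ∧ d σ = 1) ∧
      ∀ p : ℕ, p.Prime → ¬ p ∣ N * l → ∀ A : ValuationSubring ℚbar, A.LiesOverPrime p →
        (∀ σ ∈ A.inertiaSubgroupIn ℚ, r σ = 1 ∧ d σ = 1) ∧
        ∀ σ : Γ, A.IsFrobeniusAt σ p →
          r σ * r σ - a p • r σ + e p • 1 = 0 ∧ d σ = e p

section Scalar

variable {k : Type*} [CommRing k] {E : Type*} [Ring E] [Algebra k E]

/-- `u + d • u⁻¹` is scalar for all powers once it is for `u`. -/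
theorem exists_smul_one_pow {u v : E} (huv : u * v = 1) (hvu : v * u = 1) {d t : k}
    (h : u + d • v = t • 1) : ∀ j : ℕ, ∃ t' : k, u ^ j + d ^ j • v ^ j = t' • 1 := by
  suffices ∀ j : ℕ, (∃ t' : k, u ^ j + d ^ j • v ^ j = t' • 1) ∧
      ∃ t' : k, u ^ (j + 1) + d ^ (j + 1) • v ^ (j + 1) = t' • 1 from fun j => (this j).1
  intro j
  induction j with
  | zero => exact ⟨⟨2, by simp [two_smul]⟩, ⟨t, by simpa using h⟩⟩
  | succ j ih =>
    obtain ⟨⟨t₀, h₀⟩, ⟨t₁, h₁⟩⟩ := ih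
    refine ⟨⟨t₁, h₁⟩, ⟨t * t₁ - d * t₀, ?_⟩⟩
    have hu : u ^ (j + 1) * v = u ^ j := by rw [pow_succ, mul_assoc, huv, mul_one]
    have hv : v ^ (j + 1) * u = v ^ j := by rw [pow_succ, mul_assoc, hvu, mul_one]
    have key : (u ^ (j + 1) + d ^ (j + 1) • v ^ (j + 1)) * (u + d • v) =
        u ^ (j + 1 + 1) + d ^ (j + 1 + 1) • v ^ (j + 1 + 1) + d • (u ^ j + d ^ j • v ^ j) := by
      simp only [add_mul, mul_add, smul_mul_assoc, mul_smul_comm, hu, hv, ← pow_succ, smul_add,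
        smul_smul]
      rw [show d * d ^ (j + 1) = d ^ (j + 1 + 1) by ring, show d * d ^ j = d ^ (j + 1) by ring]
      abel
    rw [h₁, h, h₀, smul_mul_assoc, one_mul, smul_smul, smul_smul] at key
    rw [sub_smul, eq_sub_iff_add_eq, mul_comm t, ← key]

end Scalar

theorem scalar_of_modRep {l : ℕ} [Fact l.Prime] {N : ℕ} [NeZero N] {V : Type} [AddCommGroup V]
    [Module (ZMod l) V] (r : Γ →* Module.End (ZMod l) V) (d : Γ →* ZMod l)
    (L : IntermediateField ℚ ℚbar) [FiniteDimensional ℚ L]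
    (hL : ∀ σ : Γ, (∀ x ∈ L, σ x = x) → r σ = 1 ∧ d σ = 1) {a e : ℕ → ZMod l}
    (h : ∀ p : ℕ, p.Prime → ¬ p ∣ N * l → ∀ A : ValuationSubring ℚbar, A.LiesOverPrime p →
      ∀ σ : Γ, A.IsFrobeniusAt σ p → r σ * r σ - a p • r σ + e p • 1 = 0 ∧ d σ = e p) (σ : Γ) :
    ∃ t : ZMod l, r σ + d σ • r σ⁻¹ = t • 1 := by
  refine Density.forall_of_forall_frobenius L (fun σ => ∃ t : ZMod l, r σ + d σ • r σ⁻¹ = t • 1)
    ?_ ?_ ?_ {p | p ∣ N * l} ?_ ?_ σ
  · intro σ σ' hxy hσ'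
    have hr := Density.apply_eq_of_eqOn r L (fun τ hτ => (hL τ hτ).1) hxy
    have hinv : r σ⁻¹ = r σ'⁻¹ := by
      calc r σ⁻¹ = r σ⁻¹ * (r σ' * r σ'⁻¹) := by rw [← map_mul, mul_inv_cancel, map_one, mul_one]
        _ = r σ'⁻¹ := by rw [← hr, ← mul_assoc, ← map_mul, inv_mul_cancel, map_one, one_mul]
    rwa [hr, Density.apply_eq_of_eqOn d L (fun τ hτ => (hL τ hτ).2) hxy, hinv]
  · rintro g σ ⟨t, ht⟩
    refine ⟨t, ?_⟩
    have hd : d (g * σ * g⁻¹) = d σ := by
      rw [map_mul, map_mul, mul_right_comm, ← map_mul, mul_inv_cancel, map_one, one_mul]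
    rw [hd, show (g * σ * g⁻¹)⁻¹ = g * σ⁻¹ * g⁻¹ by group, map_mul, map_mul, map_mul r (g * σ⁻¹),
      map_mul r g σ⁻¹, ← smul_mul_assoc, ← mul_smul_comm, ← add_mul, ← mul_add, ht, mul_smul_comm,
      mul_one, smul_mul_assoc, ← map_mul, mul_inv_cancel, map_one]
  · rintro σ j ⟨t, ht⟩
    rw [← inv_pow, map_pow, map_pow, map_pow]
    exact exists_smul_one_pow (by rw [← map_mul, mul_inv_cancel, map_one])
      (by rw [← map_mul, inv_mul_cancel, map_one]) ht j
  · exact (Set.finite_le_nat (N * l)).subset fun p hp =>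
      Nat.le_of_dvd (Nat.mul_pos (NeZero.pos N) (Fact.out : l.Prime).pos) hp
  · intro p hp hpS A hA τ hτ
    obtain ⟨hq, hd⟩ := h p hp hpS A hA τ hτ
    refine ⟨a p, ?_⟩
    have := congrArg (· * r τ⁻¹) hq
    simp only [add_mul, sub_mul, smul_mul_assoc, mul_assoc, ← map_mul, mul_inv_cancel, map_one,
      mul_one, one_mul, zero_mul] at this
    rw [hd]
    rw [sub_add_eq_add_sub, sub_eq_zero] at this
    exact this

/-- **The residual representation.** -/
theorem exists_residual {l : ℕ} [Fact l.Prime] {N : ℕ} [NeZero N] {a e : ℕ → ZMod l}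
    (h : ModRep l N a e) :
    ∃ σ : Γ →* Matrix (Fin 2) (Fin 2) (AlgebraicClosure (ZMod l)),
      GaloisFactorsThroughFiniteLevel σ ∧ IsSS σ ∧
      ∀ p : ℕ, p.Prime → ¬ p ∣ N * l → ∀ A : ValuationSubring ℚbar, A.LiesOverPrime p →
        (∀ τ ∈ A.inertiaSubgroupIn ℚ, σ τ = 1) ∧
        ∀ τ : Γ, A.IsFrobeniusAt τ p →
          (σ τ).trace = algebraMap (ZMod l) _ (a p) ∧ (σ τ).det = algebraMap (ZMod l) _ (e p) := by
  obtain ⟨V, _, _, _, _, r, d, ⟨L, hLfin, hL⟩, hloc⟩ := h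
  set K := AlgebraicClosure (ZMod l)
  choose t ht using scalar_of_modRep r d L hL fun p hp hpN A hA => (hloc p hp hpN A hA).2
  set b := Module.finBasis (ZMod l) V
  have : Nonempty (Fin (Module.finrank (ZMod l) V)) := b.index_nonempty
  let Φ : Module.End (ZMod l) V →+* Module.End K (Fin (Module.finrank (ZMod l) V) → K) :=
    (Matrix.toLinAlgEquiv' (R := K)).toRingEquiv.toRingHom.comp
      ((algebraMap (ZMod l) K).mapMatrix.comp (LinearMap.toMatrixAlgEquiv b).toRingEquiv.toRingHom)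
  have hΦ : ∀ (c : ZMod l) x, Φ (c • x) = algebraMap (ZMod l) K c • Φ x := fun c x => by
    simp only [Φ, RingHom.comp_apply, RingEquiv.toRingHom_eq_coe, RingHom.coe_coe,
      AlgEquiv.coe_ringEquiv, map_smul, RingHom.mapMatrix_apply]
    rw [show (c • LinearMap.toMatrixAlgEquiv b x).map (algebraMap (ZMod l) K) =
      algebraMap (ZMod l) K c • (LinearMap.toMatrixAlgEquiv b x).map (algebraMap (ZMod l) K) from
      Matrix.ext fun i j => map_mul (algebraMap (ZMod l) K) c _]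
    exact map_smul _ _ _
  let ρ : Γ →* Module.End K (Fin (Module.finrank (ZMod l) V) → K) := Φ.toMonoidHom.comp r
  let dK : Γ →* K := (algebraMap (ZMod l) K).toMonoidHom.comp d
  obtain ⟨σ, hσ, hker, hss⟩ := exists_semisimple_two ρ dK (fun g => algebraMap (ZMod l) K (t g))
    fun g => by
      change Φ (r g) + algebraMap (ZMod l) K (d g) • Φ (r g⁻¹) = _
      rw [← hΦ, ← map_add, ht g, hΦ, map_one]
  have hone : ∀ g, r g = 1 → d g = 1 → σ g = 1 := fun g h1 h2 =>
    hker g (by simp [ρ, h1]) (by simp [dK, h2])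
  refine ⟨σ, ⟨L, hLfin, fun g hg => hone g (hL g hg).1 (hL g hg).2⟩, hss,
    fun p hp hpN A hA => ⟨fun τ hτ => hone τ ((hloc p hp hpN A hA).1 τ hτ).1
      ((hloc p hp hpN A hA).1 τ hτ).2, fun τ hτ => ?_⟩⟩
  obtain ⟨hq, hd⟩ := (hloc p hp hpN A hA).2 τ hτ
  obtain ⟨ht1, ht2⟩ := hσ τ
  have hta : t τ = a p := by
    have h1 := congrArg (· * r τ⁻¹) hq
    simp only [add_mul, sub_mul, smul_mul_assoc, mul_assoc, ← map_mul, mul_inv_cancel, map_one,
      mul_one, one_mul, zero_mul] at h1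
    rw [sub_add_eq_add_sub, sub_eq_zero, ← hd, ht τ] at h1
    exact smul_left_injective (ZMod l) (one_ne_zero : (1 : Module.End (ZMod l) V) ≠ 0) h1
  exact ⟨by rw [ht1, hta], by rw [ht2, ← hd]; rfl⟩

end Fermat.Agent.DeligneSerre
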