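import Fermat.Agent.DeligneSerre.Algebra.Quadratic

/-!
# Semisimple subgroups of `GL₂` with few characteristic polynomials

A finite semisimple subgroup of `GL₂(F)`, `F` of large characteristic, three quarters of whose
elements share at most `M` characteristic polynomials has order bounded in terms of `M`.
-/

set_option autoImplicit false

noncomputable section

open Matrix Finset

namespace Fermat.Agent.DeligneSerre

local notation "M2" F => Matrix (Fin 2) (Fin 2) F

variable {F : Type*} [Field F] {G : Type*} [Group G]

/-- Change of basis of a matrix representation. -/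
def conjRep (ι : G →* M2 F) (P : M2 F) (hP : P.det ≠ 0) : G →* M2 F where
  toFun g := P⁻¹ * ι g * P
  map_one' := by rw [map_one, mul_one, Matrix.nonsing_inv_mul _ (isUnit_iff_ne_zero.2 hP)]
  map_mul' g h := by
    rw [map_mul]
    simp only [Matrix.mul_assoc]
    rw [Matrix.mul_nonsing_inv_cancel_left _ _ (isUnit_iff_ne_zero.2 hP)]

variable (ι : G →* M2 F) (P : M2 F) (hP : P.det ≠ 0)

theorem conjRep_apply (g : G) : conjRep ι P hP g = P⁻¹ * ι g * P := rfl

theorem trace_conjRep (g : G) : (conjRep ι P hP g).trace = (ι g).trace := by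
  rw [conjRep_apply, Matrix.trace_mul_cycle, Matrix.mul_nonsing_inv _ (isUnit_iff_ne_zero.2 hP),
    one_mul]

theorem det_conjRep (g : G) : (conjRep ι P hP g).det = (ι g).det := by
  rw [conjRep_apply, Matrix.det_conj' ((Matrix.isUnit_iff_isUnit_det _).2
    (isUnit_iff_ne_zero.2 hP))]

theorem conjRep_injective (hι : Function.Injective ι) : Function.Injective (conjRep ι P hP) := by
  intro g h hgh
  refine hι ?_
  have := congrArg (fun X => P * X * P⁻¹) hgh
  simpa [conjRep_apply, Matrix.mul_assoc, Matrix.mul_nonsing_inv _ (isUnit_iff_ne_zero.2 hP),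
    Matrix.mul_nonsing_inv_cancel_left _ _ (isUnit_iff_ne_zero.2 hP)] using this

theorem det_rep_ne_zero (g : G) : (ι g).det ≠ 0 := fun h0 => by
  have := congrArg Matrix.det (map_mul ι g g⁻¹)
  rw [mul_inv_cancel, map_one, Matrix.det_one, Matrix.det_mul, h0, zero_mul] at this
  exact one_ne_zero this

variable [Fintype G]

/-- A count: at most `M` values, each attained `k` times. -/
theorem card_filter_mem_le {α β : Type*} [DecidableEq β] (s : Finset α) (f : α → β) (P : Finset β)
    (k : ℕ) [DecidablePred fun a => f a ∈ P]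
    (h : ∀ b ∈ P, (s.filter fun a => f a = b).card ≤ k) :
    (s.filter fun a => f a ∈ P).card ≤ k * P.card := by
  refine Finset.card_le_mul_card_image_of_maps_to (f := f)
    (fun a ha => (Finset.mem_filter.1 ha).2) k
    fun b hb => ?_
  refine le_trans (Finset.card_le_card fun a ha => ?_) (h b hb)
  simp only [Finset.mem_filter] at ha ⊢
  exact ⟨ha.1.1, ha.2⟩

/-- **Tori are small.** -/
theorem card_diag_le [DecidableEq F] (hι : Function.Injective ι) (P : Finset (F × F)) {M : ℕ}
    (hM : P.card ≤ M)
    (hH : 3 * Fintype.card G ≤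
      4 * (univ.filter fun g => ((ι g).trace, (ι g).det) ∈ P).card) :
    (univ.filter fun g => ι g 0 1 = 0 ∧ ι g 1 0 = 0).card ≤ 8 * M := by
  classical
  set D := univ.filter fun g => ι g 0 1 = 0 ∧ ι g 1 0 = 0
  set H := univ.filter fun g => ((ι g).trace, (ι g).det) ∈ P
  set bad := univ.filter fun g => ι g 0 0 = 0 ∧ ι g 1 1 = 0
  -- products
  have hent : ∀ g t, t ∈ D → ι (g * t) 0 0 = ι g 0 0 * ι t 0 0 ∧ ι (g * t) 1 1 = ι g 1 1 * ι t 1 1 ∧
      (ι (g * t)).det = (ι g).det * (ι t 0 0 * ι t 1 1) := by
    intro g t ht
    obtain ⟨-, h01, h10⟩ := Finset.mem_filter.1 ht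
    refine ⟨?_, ?_, ?_⟩
    · simp [Matrix.mul_apply, Fin.sum_univ_two, h10]
    · simp [Matrix.mul_apply, Fin.sum_univ_two, h01]
    · rw [map_mul, Matrix.det_mul, Matrix.det_fin_two (ι t), h01, zero_mul, sub_zero]
  have hD0 : ∀ t ∈ D, ι t 0 0 ≠ 0 ∧ ι t 1 1 ≠ 0 := fun t ht => by
    obtain ⟨-, h01, -⟩ := Finset.mem_filter.1 ht
    have := det_rep_ne_zero ι t
    rw [Matrix.det_fin_two, h01, zero_mul, sub_zero] at this
    exact mul_ne_zero_iff.1 this
  have hext : ∀ t ∈ D, ∀ t' ∈ D, ι t 0 0 = ι t' 0 0 → ι t 1 1 = ι t' 1 1 → t = t' := by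
    intro t ht t' ht' h0 h1
    obtain ⟨-, a01, a10⟩ := Finset.mem_filter.1 ht
    obtain ⟨-, b01, b10⟩ := Finset.mem_filter.1 ht'
    refine hι ?_
    ext i j
    fin_cases i <;> fin_cases j <;> simp [h0, h1, a01, a10, b01, b10]
  have hgood : ∀ g, g ∉ bad → (D.filter fun t => g * t ∈ H).card ≤ 2 * M := by
    intro g hg
    have e : (D.filter fun t => g * t ∈ H) =
        D.filter fun t => ((ι (g * t)).trace, (ι (g * t)).det) ∈ P := by
      simp [H]
    rw [e]
    refine (card_filter_mem_le D _ P 2 fun b _ => ?_).trans (Nat.mul_le_mul_left 2 hM)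
    rcases Finset.eq_empty_or_nonempty
      (D.filter fun t => ((ι (g * t)).trace, (ι (g * t)).det) = b) with h | ⟨t₀, ht₀⟩
    · rw [h]; simp
    set x₀ := ι t₀ 0 0
    set y₀ := ι t₀ 1 1
    set a := ι g 0 0
    set c := ι g 1 1
    refine le_trans (Finset.card_le_card_of_injOn (fun t => ι t 0 0)
      (t := if a = 0 then {x₀} else {x₀, c * y₀ / a}) (fun t ht => ?_) ?_) (by
        split_ifs
        · simp
        · exact Finset.card_le_two)
    · simp only [Finset.coe_filter, Set.mem_ofPred_eq, Finset.mem_filter] at ht ht₀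
      obtain ⟨htD, htb⟩ := ht
      obtain ⟨h00, h11, hdet⟩ := hent g t htD
      obtain ⟨k00, k11, kdet⟩ := hent g t₀ ht₀.1
      have htr := congrArg Prod.fst (htb.trans ht₀.2.symm)
      have hd := congrArg Prod.snd (htb.trans ht₀.2.symm)
      simp only [Matrix.trace_fin_two, h00, h11, k00, k11, hdet, kdet] at htr hd
      have hxy : ι t 0 0 * ι t 1 1 = x₀ * y₀ := mul_left_cancel₀ (det_rep_ne_zero ι g) hd
      simp only [Finset.mem_coe]
      split_ifs with ha
      · rw [Finset.mem_singleton]
        have hc : c ≠ 0 := fun hc => hg (Finset.mem_filter.2 ⟨Finset.mem_univ _, ha, hc⟩)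
        change a * ι t 0 0 + c * ι t 1 1 = a * x₀ + c * y₀ at htr
        rw [ha, zero_mul, zero_add, zero_mul, zero_add] at htr
        rw [mul_left_cancel₀ hc htr] at hxy
        exact mul_right_cancel₀ (hD0 t₀ ht₀.1).2 hxy
      · rw [Finset.mem_insert, Finset.mem_singleton]
        have : (ι t 0 0 - x₀) * (a * ι t 0 0 - c * y₀) = 0 := by
          change a * ι t 0 0 + c * ι t 1 1 = a * x₀ + c * y₀ at htr
          linear_combination ι t 0 0 * htr - c * hxy
        rcases mul_eq_zero.1 this with h | h
        · exact Or.inl (sub_eq_zero.1 h)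
        · exact Or.inr (by rw [eq_div_iff ha, ← sub_eq_zero.1 h]; ring)
    · intro t ht t' ht' h0
      simp only [Finset.coe_filter, Set.mem_ofPred_eq] at ht ht'
      refine hext t ht.1 t' ht'.1 h0 ?_
      have hd := congrArg Prod.snd (ht.2.trans ht'.2.symm)
      simp only [(hent g t ht.1).2.2, (hent g t' ht'.1).2.2] at hd
      have := mul_left_cancel₀ (det_rep_ne_zero ι g) hd
      rw [show ι t 0 0 = ι t' 0 0 from h0] at this
      exact mul_left_cancel₀ (hD0 t' ht'.1).1 this
  -- the exceptional coset
  have hbad : 2 * bad.card ≤ Fintype.card G := by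
    have hdisj : Disjoint bad D := Finset.disjoint_left.2 fun g hg hgD =>
      (hD0 g hgD).1 (Finset.mem_filter.1 hg).2.1
    rcases Finset.eq_empty_or_nonempty bad with h | ⟨g₀, hg₀⟩
    · rw [h]; simp
    have hle : bad.card ≤ D.card := by
      refine Finset.card_le_card_of_injOn (fun g => g₀⁻¹ * g) (fun g hg => ?_)
        (mul_right_injective _).injOn
      rw [Finset.mem_coe] at hg ⊢
      obtain ⟨-, a00, a11⟩ := Finset.mem_filter.1 hg
      obtain ⟨-, b00, b11⟩ := Finset.mem_filter.1 hg₀
      have hg' : ι g₀ * ι (g₀⁻¹ * g) = ι g := by rw [← map_mul, mul_inv_cancel_left]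
      have e00 := congrFun (congrFun hg' 0) 0
      have e11 := congrFun (congrFun hg' 1) 1
      simp only [Matrix.mul_apply, Fin.sum_univ_two, b00, b11, a00, a11, zero_mul, zero_add,
        add_zero] at e00 e11
      have hd := det_rep_ne_zero ι g₀
      rw [Matrix.det_fin_two, b00, zero_mul, zero_sub, neg_ne_zero] at hd
      exact Finset.mem_filter.2 ⟨Finset.mem_univ _,
        (mul_eq_zero.1 e11).resolve_left (mul_ne_zero_iff.1 hd).2,
        (mul_eq_zero.1 e00).resolve_left (mul_ne_zero_iff.1 hd).1⟩
    have := Finset.card_le_univ (bad ∪ D)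
    rw [Finset.card_union_of_disjoint hdisj] at this
    omega
  -- double count
  have hcount : ∑ g, (D.filter fun t => g * t ∈ H).card = D.card * H.card := by
    simp only [Finset.card_filter]
    rw [Finset.sum_comm]
    simp only [← Finset.card_filter]
    rw [← smul_eq_mul, ← Finset.sum_const]
    refine Finset.sum_congr rfl fun t _ => ?_
    refine Finset.card_bij (fun g _ => g * t) (fun g hg => (Finset.mem_filter.1 hg).2)
      (fun g _ g' _ h => mul_right_cancel h) fun h hh => ⟨h * t⁻¹, ?_, inv_mul_cancel_right h t⟩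
    simpa using hh
  have hub : ∑ g, (D.filter fun t => g * t ∈ H).card ≤
      2 * M * Fintype.card G + bad.card * D.card := by
    calc ∑ g, (D.filter fun t => g * t ∈ H).card
        ≤ ∑ g, (2 * M + if g ∈ bad then D.card else 0) := by
          refine Finset.sum_le_sum fun g _ => ?_
          split_ifs with h
          · exact le_add_left (Finset.card_filter_le _ _)
          · simpa using hgood g h
      _ = _ := by
          rw [Finset.sum_add_distrib, Finset.sum_const, Finset.card_univ, smul_eq_mul,
            Finset.sum_ite_mem, Finset.univ_inter, Finset.sum_const, smul_eq_mul]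
          ring
  rw [hcount] at hub
  have h4 : D.card * Fintype.card G ≤ 8 * M * Fintype.card G := by nlinarith
  exact Nat.le_of_mul_le_mul_right h4 Fintype.card_pos

theorem sq_eq_zero_of_pow {N : M2 F} {k : ℕ} (h : N ^ k = 0) : N * N = 0 := by
  rcases Nat.eq_zero_or_pos k with rfl | hk
  · have : (1 : M2 F) = 0 := by simp at h
    simpa using congrArg (fun X : M2 F => N * N * X) this
  have hdet : N.det = 0 := by
    have := congrArg Matrix.det h
    rw [Matrix.det_pow, Matrix.det_zero] at this
    exact pow_eq_zero_iff hk.ne' |>.1 this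
  have hsq : N * N = N.trace • N := by
    rw [Matrix.det_fin_two] at hdet
    ext i j
    fin_cases i <;> fin_cases j <;>
      simp [Matrix.mul_apply, Fin.sum_univ_two, Matrix.trace_fin_two] <;>
      first | linear_combination -hdet | ring
  have hpow : ∀ j, N ^ (j + 1) = N.trace ^ j • N := by
    intro j
    induction j with
    | zero => simp
    | succ j ih => rw [pow_succ, ih, smul_mul_assoc, hsq, smul_smul, ← pow_succ]
  obtain ⟨j, rfl⟩ := Nat.exists_eq_add_of_le' hk
  rw [hpow] at h
  rcases smul_eq_zero.1 h with h | h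
  · rw [hsq, (pow_eq_zero_iff'.1 h).1, zero_smul]
  · rw [h, mul_zero]

variable [IsAlgClosed F]

/-- **The group bound.** -/
theorem card_le_of_few_charpolys [DecidableEq F] (hι : Function.Injective ι) (hss : IsSS ι)
    {l : ℕ} [Fact l.Prime] [CharP F l] {M : ℕ} (hl : 4 * M < l) (_hM1 : 1 ≤ M)
    (P : Finset (F × F)) (hM : P.card ≤ M)
    (hH : 3 * Fintype.card G ≤ 4 * (univ.filter fun g => ((ι g).trace, (ι g).det) ∈ P).card) :
    Fintype.card G ≤ (8 * M).factorial * (8 * M) := by
  classical
  have hlp : l.Prime := Fact.out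
  have hfac : 1 ≤ (8 * M).factorial := Nat.factorial_pos _
  have hnl : ¬ l ∣ Fintype.card G := by
    intro hdvd
    obtain ⟨u, hu⟩ := exists_prime_orderOf_dvd_card l hdvd
    have hul : ι u ^ l = 1 := by rw [← map_pow, ← hu, pow_orderOf_eq_one, map_one]
    have : CharP (M2 F) l :=
      charP_of_injective_algebraMap (algebraMap F (M2 F)).injective l
    set N := ι u - 1
    have hN : N * N = 0 := sq_eq_zero_of_pow (k := l) (by
      rw [sub_pow_char_of_commute l (Commute.one_right _), one_pow, hul, sub_self])
    have hN0 : N ≠ 0 := fun h => by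
      have : u = 1 := hι (by rw [map_one]; exact sub_eq_zero.1 h)
      rw [this, orderOf_one] at hu
      exact hlp.one_lt.ne hu
    rcases hss with hdiag | hspan
    · apply hN0
      have h01 : N 0 1 = 0 := by simp [N, (hdiag u).1]
      have h10 : N 1 0 = 0 := by simp [N, (hdiag u).2]
      have e0 := congrFun (congrFun hN 0) 0
      have e1 := congrFun (congrFun hN 1) 1
      simp [Matrix.mul_apply, Fin.sum_univ_two, h01, h10] at e0 e1
      ext i j
      fin_cases i <;> fin_cases j <;> simp [h01, h10, e0, e1]
    obtain ⟨v, hv⟩ : ∃ v, N *ᵥ v ≠ 0 := by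
      by_contra hall
      push Not at hall
      exact hN0 (Matrix.ext fun i j => by simpa using congrFun (hall (Pi.single j 1)) i)
    set w := N *ᵥ v
    have hNw : N *ᵥ w = 0 := by rw [Matrix.mulVec_mulVec, hN, Matrix.zero_mulVec]
    set Q : M2 F := !![w 0, v 0; w 1, v 1]
    have hQ : Q.det ≠ 0 := fun h0 => by
      obtain ⟨c, hc, hc0⟩ := Matrix.exists_mulVec_eq_zero_iff.2 h0
      have hlin : c 0 • w + c 1 • v = 0 := by
        ext i
        have := congrFun hc0 i
        fin_cases i <;> simp [Q, Matrix.mulVec, dotProduct, Fin.sum_univ_two] at this ⊢ <;>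
          linear_combination this
      have h2 := congrArg (N *ᵥ ·) hlin
      simp only [Matrix.mulVec_add, Matrix.mulVec_smul, hNw, smul_zero, zero_add,
        Matrix.mulVec_zero] at h2
      have hc1 : c 1 = 0 := (smul_eq_zero.1 h2).resolve_right hv
      rw [hc1, zero_smul, add_zero] at hlin
      have hc0' : c 0 = 0 := (smul_eq_zero.1 hlin).resolve_right hv
      exact hc (funext fun i => by fin_cases i <;> simp [hc1, hc0'])
    set κ := conjRep ι Q hQ
    have hκu : κ u = !![1, 1; 0, 1] := by
      have hQu : ι u * Q = Q * !![1, 1; 0, 1] := by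
        have h1 : ι u = 1 + N := by simp [N]
        rw [h1, add_mul, one_mul]
        ext i j
        have a := congrFun hNw i
        have b : (N *ᵥ v) i = w i := rfl
        simp [Matrix.mulVec, dotProduct, Fin.sum_univ_two] at a b
        fin_cases i <;> fin_cases j <;> simp [Q, Matrix.mul_apply, Fin.sum_univ_two] at a b ⊢ <;>
          first | linear_combination a | linear_combination b
      rw [show κ u = Q⁻¹ * ι u * Q from rfl, Matrix.mul_assoc, hQu, ← Matrix.mul_assoc,
        Matrix.nonsing_inv_mul _ (isUnit_iff_ne_zero.2 hQ), one_mul]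
    have hκuk : ∀ k : ℕ, κ (u ^ k) = !![1, (k : F); 0, 1] := by
      intro k
      induction k with
      | zero => simp [map_one, Matrix.one_fin_two]
      | succ k ih =>
        rw [pow_succ, map_mul, ih, hκu]
        ext i j
        fin_cases i <;> fin_cases j <;> simp [Matrix.mul_apply, Fin.sum_univ_two, add_comm]
    set B := univ.filter fun g => κ g 1 0 = 0
    set H := univ.filter fun g => ((ι g).trace, (ι g).det) ∈ P
    obtain ⟨g₀, hg₀⟩ : ∃ g, κ g 1 0 ≠ 0 := by
      by_contra hall
      push Not at hall
      have hwall : ∀ g, (Q⁻¹ * ι g * Q) 1 0 = 0 := hall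
      have : ∀ X ∈ Submodule.span F (Set.range ι), (Q⁻¹ * X * Q) 1 0 = 0 := by
        intro X hX
        induction hX using Submodule.span_induction with
        | mem x h => obtain ⟨g, rfl⟩ := h; exact hwall g
        | zero => simp
        | add a b _ _ ha hb => rw [mul_add, add_mul, Matrix.add_apply, ha, hb, add_zero]
        | smul c a _ ha => rw [mul_smul_comm, smul_mul_assoc, Matrix.smul_apply, ha, smul_zero]
      have h := this (Q * !![0, 0; 1, 0] * Q⁻¹) (by rw [hspan]; trivial)
      rw [show Q⁻¹ * (Q * !![0, 0; 1, 0] * Q⁻¹) * Q = (Q⁻¹ * Q) * !![0, 0; 1, 0] * (Q⁻¹ * Q) by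
        simp only [Matrix.mul_assoc], Matrix.nonsing_inv_mul _ (isUnit_iff_ne_zero.2 hQ), one_mul,
        mul_one] at h
      simp at h
    have hB : 2 * B.card ≤ Fintype.card G := by
      have hle : B.card ≤ (univ \ B).card := by
        refine Finset.card_le_card_of_injOn (fun g => g₀ * g) (fun g hg => ?_)
          (mul_right_injective _).injOn
        simp only [B, Finset.coe_filter, Set.mem_ofPred_eq, Finset.mem_coe, Finset.mem_sdiff,
          Finset.mem_filter, Finset.mem_univ, true_and] at hg ⊢
        have h00 : κ g 0 0 ≠ 0 := fun h0 => det_rep_ne_zero κ g (by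
          rw [Matrix.det_fin_two, h0, hg]; ring)
        simp [Matrix.mul_apply, Fin.sum_univ_two, hg, hg₀, h00]
      rw [Finset.card_sdiff_of_subset (Finset.subset_univ _), Finset.card_univ] at hle
      omega
    have hcount : ∑ g, ((range l).filter fun k => g * u ^ k ∈ H).card = l * H.card := by
      simp only [Finset.card_filter]
      rw [Finset.sum_comm]
      simp only [← Finset.card_filter]
      rw [show l * H.card = (range l).card * H.card by rw [Finset.card_range], ← smul_eq_mul,
        ← Finset.sum_const]
      refine Finset.sum_congr rfl fun k _ => ?_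
      refine Finset.card_bij (fun g _ => g * u ^ k) (fun g hg => (Finset.mem_filter.1 hg).2)
        (fun g _ g' _ h => mul_right_cancel h) fun h hh =>
          ⟨h * (u ^ k)⁻¹, ?_, inv_mul_cancel_right h _⟩
      simpa using hh
    have hgood : ∀ g, g ∉ B → ((range l).filter fun k => g * u ^ k ∈ H).card ≤ M := by
      intro g hg
      have hg' : κ g 1 0 ≠ 0 := by simpa [B] using hg
      have e : ((range l).filter fun k => g * u ^ k ∈ H) = (range l).filter fun k =>
          ((ι (g * u ^ k)).trace, (ι (g * u ^ k)).det) ∈ P := by simp [H]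
      rw [e]
      refine (card_filter_mem_le (range l) _ P 1 fun b _ => ?_).trans (by simpa using hM)
      refine Finset.card_le_one.2 fun i hi j hj => ?_
      rw [Finset.mem_filter, Finset.mem_range] at hi hj
      have h := congrArg Prod.fst (hi.2.trans hj.2.symm)
      simp only at h
      rw [← trace_conjRep ι Q hQ, ← trace_conjRep ι Q hQ] at h
      change (κ (g * u ^ i)).trace = (κ (g * u ^ j)).trace at h
      simp [Matrix.trace_fin_two, map_mul, hκuk, Matrix.mul_apply, Fin.sum_univ_two, -map_pow] at h
      have hij : (i : F) = j := h.resolve_right hg'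
      exact CharP.natCast_injOn_Iio F l hi.1 hj.1 hij
    have hub : l * H.card ≤ M * Fintype.card G + l * B.card := by
      rw [← hcount]
      calc _ ≤ ∑ g, (M + if g ∈ B then l else 0) := by
            refine Finset.sum_le_sum fun g _ => ?_
            split_ifs with h
            · exact le_add_left ((Finset.card_filter_le _ _).trans (by rw [Finset.card_range]))
            · simpa using hgood g h
        _ = _ := by
            rw [Finset.sum_add_distrib, Finset.sum_const, Finset.card_univ, smul_eq_mul,
              Finset.sum_ite_mem, Finset.univ_inter, Finset.sum_const, smul_eq_mul]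
            ring
    have hpos : 0 < Fintype.card G := Fintype.card_pos
    nlinarith
  have hcast : (Fintype.card G : F) ≠ 0 := by
    rw [Ne, CharP.cast_eq_zero_iff F l]; exact hnl
  -- centralisers of non-scalar elements
  have hcent : ∀ g, ι g ≠ ι g 0 0 • 1 → Nat.card (Subgroup.centralizer {g}) ≤ 8 * M := by
    intro g hg
    obtain ⟨x, hx⟩ := IsAlgClosed.exists_root
      (Polynomial.X ^ 2 - Polynomial.C (ι g).trace * Polynomial.X + Polynomial.C (ι g).det)
      (by
        intro h
        have hm : (Polynomial.X ^ 2 - Polynomial.C (ι g).trace * Polynomial.X +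
            Polynomial.C (ι g).det).coeff 2 = 1 := by simp
        rw [Polynomial.eq_C_of_degree_eq_zero h] at hm
        simp at hm)
    simp only [Polynomial.IsRoot.def, Polynomial.eval_add, Polynomial.eval_sub, Polynomial.eval_pow,
      Polynomial.eval_X, Polynomial.eval_mul, Polynomial.eval_C] at hx
    set y := (ι g).trace - x with hy
    have hCH : (ι g - x • 1) * (ι g - y • 1) = 0 := by
      rw [Matrix.trace_fin_two] at hx hy
      rw [Matrix.det_fin_two] at hx
      ext i j
      fin_cases i <;> fin_cases j <;> simp [Matrix.mul_apply, Fin.sum_univ_two, hy] <;>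
        first | linear_combination -hx | linear_combination hx | ring
    have hxy : x ≠ y := by
      intro hxy
      rw [← hxy] at hCH
      apply hg
      set N := ι g - x • 1
      have hι' : ι g = x • 1 + N := by simp [N]
      have hpow : ∀ k : ℕ, ι g ^ (k + 1) = x ^ (k + 1) • 1 + ((k + 1 : ℕ) * x ^ k) • N := by
        intro k
        induction k with
        | zero => simp [hι']
        | succ k ih =>
          rw [pow_succ (ι g), ih, hι']
          simp only [add_mul, mul_add, smul_mul_assoc, one_mul, mul_smul_comm, mul_one, smul_add,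
            smul_smul, hCH, smul_zero, add_zero]
          rw [add_assoc, ← add_smul]
          congr 2
          · ring
          · push_cast; ring
      have hx0 : x ≠ 0 := fun h0 => det_rep_ne_zero ι g (by
        rw [hι', h0, zero_smul, zero_add]
        have := congrArg Matrix.det hCH
        rw [Matrix.det_mul, Matrix.det_zero] at this
        exact mul_self_eq_zero.1 this)
      obtain ⟨k, hk⟩ : ∃ k, Fintype.card G = k + 1 :=
        ⟨Fintype.card G - 1, (Nat.sub_add_cancel Fintype.card_pos).symm⟩
      have h1 := hpow k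
      rw [← hk, ← map_pow, pow_card_eq_one, map_one] at h1
      have hN : N = 0 := by
        have h00 := congrFun (congrFun hCH 0) 0
        have h2 : ((Fintype.card G : F) * x ^ k) • N = (1 - x ^ Fintype.card G) • (1 : M2 F) := by
          rw [sub_smul, one_smul, eq_sub_iff_add_eq']; exact h1.symm
        have hc0 : (1 : F) - x ^ Fintype.card G = 0 := by
          have := congrArg (· * N) h2
          simp only [smul_mul_assoc, hCH, smul_zero, one_mul] at this
          rcases smul_eq_zero.1 this.symm with h | h
          · exact h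
          · rw [h, smul_zero] at h2
            exact (smul_eq_zero.1 h2.symm).resolve_right one_ne_zero
        rw [hc0, zero_smul] at h2
        exact (smul_eq_zero.1 h2).resolve_left (mul_ne_zero hcast (pow_ne_zero _ hx0))
      rw [hι', hN, add_zero]
      simp
    have heig : ∀ z, z = x ∨ z = y → ∃ v, v ≠ 0 ∧ ι g *ᵥ v = z • v := by
      intro z hz
      have : (ι g - z • 1).det = 0 := by
        have e : (ι g - z • 1).det = z ^ 2 - (ι g).trace * z + (ι g).det := by
          simp [Matrix.det_fin_two, Matrix.trace_fin_two]; ring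
        rw [e]
        rcases hz with rfl | rfl
        · exact hx
        · rw [hy]; linear_combination hx
      obtain ⟨v, hv, hv'⟩ := Matrix.exists_mulVec_eq_zero_iff.2 this
      rw [sub_mulVec, smul_mulVec, one_mulVec, sub_eq_zero] at hv'
      exact ⟨v, hv, hv'⟩
    obtain ⟨v, hv0, hv⟩ := heig x (Or.inl rfl)
    obtain ⟨w, hw0, hw⟩ := heig y (Or.inr rfl)
    set Q : M2 F := !![v 0, w 0; v 1, w 1]
    have hQ : Q.det ≠ 0 := fun h0 => by
      obtain ⟨c, hc, hc0⟩ := Matrix.exists_mulVec_eq_zero_iff.2 h0
      have hlin : c 0 • v + c 1 • w = 0 := by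
        ext i
        have := congrFun hc0 i
        fin_cases i <;> simp [Q, Matrix.mulVec, dotProduct, Fin.sum_univ_two] at this ⊢ <;>
          linear_combination this
      have h2 := congrArg (ι g *ᵥ ·) hlin
      simp only [Matrix.mulVec_add, Matrix.mulVec_smul, hv, hw, Matrix.mulVec_zero] at h2
      have h3 : (c 1 * (y - x)) • w = 0 := by
        linear_combination (norm := module) h2 - x • hlin
      have hc1 : c 1 = 0 := (mul_eq_zero.1 ((smul_eq_zero.1 h3).resolve_right hw0)).resolve_right
        (sub_ne_zero.2 hxy.symm)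
      rw [hc1, zero_smul, add_zero] at hlin
      exact hc (funext fun i => by
        fin_cases i <;> simp [hc1, (smul_eq_zero.1 hlin).resolve_right hv0])
    set κ := conjRep ι Q hQ
    have hκg : κ g = !![x, 0; 0, y] := by
      have hQg : ι g * Q = Q * !![x, 0; 0, y] := by
        ext i j
        have a := congrFun hv i
        have b := congrFun hw i
        simp [Matrix.mulVec, dotProduct, Fin.sum_univ_two] at a b
        fin_cases i <;> fin_cases j <;> simp [Q, Matrix.mul_apply, Fin.sum_univ_two] at a b ⊢ <;>
          first | linear_combination a | linear_combination b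
      rw [show κ g = Q⁻¹ * ι g * Q from rfl, Matrix.mul_assoc, hQg, ← Matrix.mul_assoc,
        Matrix.nonsing_inv_mul _ (isUnit_iff_ne_zero.2 hQ), one_mul]
    have hH' : 3 * Fintype.card G ≤
        4 * (univ.filter fun h => ((κ h).trace, (κ h).det) ∈ P).card := by
      simpa only [κ, trace_conjRep, det_conjRep] using hH
    refine le_trans ?_ (card_diag_le κ (conjRep_injective ι Q hQ hι) P hM hH')
    rw [Nat.card_eq_fintype_card]
    refine Finset.card_le_card_of_injOn (fun h : Subgroup.centralizer {g} => (h : G))
      (fun h _ => ?_) Subtype.val_injective.injOn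
    have hcomm : g * (h : G) = h * g := h.2 g rfl
    have e := congrArg κ hcomm
    rw [map_mul, map_mul, hκg] at e
    have e01 := congrFun (congrFun e 0) 1
    have e10 := congrFun (congrFun e 1) 0
    simp [Matrix.mul_apply, Fin.sum_univ_two] at e01 e10
    simp only [Finset.coe_filter, Finset.mem_univ, true_and, Set.mem_ofPred_eq]
    exact ⟨(mul_eq_zero.1 (show κ h 0 1 * (x - y) = 0 by linear_combination e01)).resolve_right
        (sub_ne_zero.2 hxy),
      (mul_eq_zero.1 (show κ h 1 0 * (y - x) = 0 by linear_combination e10)).resolve_right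
        (sub_ne_zero.2 hxy.symm)⟩
  -- scalar elements
  have hscalar : ∀ g, ι g = ι g 0 0 • 1 → g ∈ Subgroup.center G := fun g hg => by
    refine Subgroup.mem_center_iff.2 fun h => hι ?_
    rw [map_mul, map_mul, hg, smul_mul_assoc, mul_smul_comm, one_mul, mul_one]
  by_cases hex : ∃ g ∈ Subgroup.center G, ι g ≠ ι g 0 0 • 1
  · obtain ⟨g, hgc, hg⟩ := hex
    have htop : Subgroup.centralizer {g} = ⊤ := by
      rw [eq_top_iff]
      intro h _ k hk
      rw [Set.mem_singleton_iff.1 hk]
      exact (Subgroup.mem_center_iff.1 hgc h).symm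
    have := hcent g hg
    rw [htop, Subgroup.card_top, Nat.card_eq_fintype_card] at this
    exact this.trans (le_mul_of_one_le_left (Nat.zero_le _) hfac)
  push Not at hex
  have hZ : Nat.card (Subgroup.center G) ≤ 8 * M := by
    refine le_trans ?_ (card_diag_le ι hι P hM hH)
    rw [Nat.card_eq_fintype_card]
    refine Finset.card_le_card_of_injOn (fun h : Subgroup.center G => (h : G))
      (fun h _ => ?_) Subtype.val_injective.injOn
    have e := hex h h.2
    simp only [Finset.coe_filter, Finset.mem_univ, true_and, Set.mem_ofPred_eq]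
    exact ⟨by rw [e]; simp, by rw [e]; simp⟩
  set K := (8 * M).factorial
  have hdvd : ∀ c ∈ ConjClasses.noncenter G, Fintype.card G ∣ Nat.card c.carrier * K := by
    intro c hc
    obtain ⟨g, rfl⟩ := ConjClasses.exists_rep c
    have hg : ι g ≠ ι g 0 0 • 1 := fun hg => by
      have hcen := hscalar g hg
      have : (ConjClasses.mk g).carrier.Subsingleton := by
        intro a ha b hb
        rw [ConjClasses.mem_carrier_iff_mk_eq, ConjClasses.mk_eq_mk_iff_isConj, isConj_comm,
          isConj_iff] at ha hb
        obtain ⟨p, rfl⟩ := ha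
        obtain ⟨q, rfl⟩ := hb
        rw [Subgroup.mem_center_iff.1 hcen p, Subgroup.mem_center_iff.1 hcen q]
        simp
      exact this.not_nontrivial hc
    have h2 : Nat.card (MulAction.stabilizer (ConjAct G) g) * Nat.card (ConjClasses.mk g).carrier =
        Fintype.card G := by
      have := (MulAction.stabilizer (ConjAct G) g).card_mul_index
      rw [MulAction.index_stabilizer, ← Nat.card_coe_set_eq, ConjAct.orbit_eq_carrier_conjClasses]
        at this
      rw [this, ← Nat.card_eq_fintype_card]
      rfl
    rw [← h2, ← Subgroup.nat_card_centralizer_nat_card_stabilizer,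
      Nat.mul_comm (Nat.card (Subgroup.centralizer {g}))]
    exact Nat.mul_dvd_mul_left _ (Nat.dvd_factorial Nat.card_pos (hcent g hg))
  have heq := Group.nat_card_center_add_sum_card_noncenter_eq_card G
  rw [finsum_mem_eq_finite_toFinset_sum _ (Set.toFinite _)] at heq
  have h3 : Fintype.card G ∣ (∑ c ∈ (Set.toFinite (ConjClasses.noncenter G)).toFinset,
      Nat.card c.carrier) * K := by
    rw [Finset.sum_mul]
    exact Finset.dvd_sum fun c hc => hdvd c (by simpa using hc)
  have h4 : Fintype.card G ∣ Nat.card (Subgroup.center G) * K := by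
    refine (Nat.dvd_add_left h3).1 ?_
    rw [← add_mul, heq, Nat.card_eq_fintype_card]
    exact dvd_mul_right _ _
  calc Fintype.card G ≤ Nat.card (Subgroup.center G) * K :=
        Nat.le_of_dvd (Nat.mul_pos Nat.card_pos (Nat.factorial_pos _)) h4
    _ ≤ 8 * M * K := Nat.mul_le_mul_right _ hZ
    _ = K * (8 * M) := Nat.mul_comm _ _

end Fermat.Agent.DeligneSerre
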