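import Mathlib

/-!
# Places of `ℂ` over a residue map of a ring of algebraic integers

A residue map extends to a valuation subring of `ℂ`, whose residue field is algebraically closed;
an algebraic integer vanishing at infinitely many residue characteristics is zero.
-/

set_option autoImplicit false

noncomputable section

open IsLocalRing Polynomial

namespace Fermat.Agent.DeligneSerre

/-- An element of a valuation ring of `ℂ` integral over `ℤ` lies in it. -/
theorem mem_of_isIntegral_int (O : ValuationSubring ℂ) {x : ℂ} (hx : IsIntegral ℤ x) : x ∈ O := by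
  obtain ⟨y, hy⟩ := IsIntegrallyClosed.algebraMap_eq_of_integral (R := O)
    (IsIntegral.tower_top (A := O) hx)
  rw [← hy]
  exact y.2

/-- The residue field of a valuation ring of an algebraically closed field is algebraically
closed. -/
theorem isAlgClosed_residue (O : ValuationSubring ℂ) : IsAlgClosed (ResidueField O) := by
  refine IsAlgClosed.of_exists_root _ fun p hm hirr => ?_
  have hlift : p ∈ Polynomial.lifts (residue O) :=
    (Polynomial.lifts_iff_coeff_lifts p).2 fun n => residue_surjective _
  obtain ⟨q, hq, hdeg, hqm⟩ := Polynomial.lifts_and_natDegree_eq_and_monic hlift hm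
  have hqdeg : (q.map O.subtype).degree ≠ 0 := by
    rw [Polynomial.degree_map_eq_of_injective Subtype.val_injective]
    exact (Polynomial.natDegree_pos_iff_degree_pos.1 (by rw [hdeg]; exact hirr.natDegree_pos)).ne'
  obtain ⟨z, hz⟩ := IsAlgClosed.exists_root _ hqdeg
  have hint : IsIntegral O z := ⟨q, hqm, by rwa [IsRoot.def, eval_map] at hz⟩
  obtain ⟨y, rfl⟩ := IsIntegrallyClosed.algebraMap_eq_of_integral hint
  refine ⟨residue O y, ?_⟩
  rw [IsRoot.def, eval_map] at hz
  have h0 : q.eval y = 0 := Subtype.val_injective (by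
    change O.subtype (q.eval y) = O.subtype 0
    rw [← Polynomial.eval₂_at_apply, map_zero]
    exact hz)
  rw [← hq, eval_map, eval₂_at_apply, h0, map_zero]

/-- **A place over `π`.** -/
theorem exists_place (R : Subalgebra ℤ ℂ) [Module.Finite ℤ R] {l : ℕ} [Fact l.Prime]
    (π : R →+* ZMod l) :
    ∃ O : ValuationSubring ℂ, CharP (ResidueField O) l ∧
      ∀ r : R, residue O ⟨(r : ℂ), mem_of_isIntegral_int O
        ((Algebra.IsIntegral.isIntegral r).map R.val)⟩ = ((π r).val : ResidueField O) := by
  have hl : l.Prime := Fact.out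
  have := RingHom.ker_isPrime π
  obtain ⟨O, hle, himg⟩ := Ideal.image_subset_nonunits_valuationSubring (A := R.toSubring)
    (RingHom.ker π) (RingHom.ker_ne_top π)
  have hmem : ∀ r : R, π r = 0 → ∀ h : (r : ℂ) ∈ O, residue O ⟨(r : ℂ), h⟩ = 0 := fun r hr h => by
    rw [IsLocalRing.residue_eq_zero_iff, ← O.coe_mem_nonunits_iff]
    exact himg ⟨r, hr, rfl⟩
  refine ⟨O, (CharP.charP_iff_prime_eq_zero hl).2 ?_, fun r => ?_⟩
  · rw [← map_natCast (residue O)]
    have := hmem (l : R) (by rw [map_natCast, ZMod.natCast_self]) (by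
      rw [show ((l : R) : ℂ) = (l : ℂ) from map_natCast R.val l]; exact natCast_mem O.toSubring l)
    convert this using 2
    exact Subtype.ext (by simp)
  · have h : π (r - ((π r).val : R)) = 0 := by
      rw [map_sub, map_natCast, ZMod.natCast_zmod_val, sub_self]
    have hr := mem_of_isIntegral_int O ((Algebra.IsIntegral.isIntegral r).map R.val)
    have hn : (((π r).val : R) : ℂ) ∈ O := by
      rw [show (((π r).val : R) : ℂ) = ((π r).val : ℂ) from map_natCast R.val _]
      exact natCast_mem O.toSubring _
    have := hmem _ h (by rw [Subalgebra.coe_sub]; exact sub_mem hr hn)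
    rw [← sub_eq_zero, ← map_natCast (residue O), ← map_sub]
    convert this using 2
    exact Subtype.ext (by simp [-ZMod.natCast_val])

/-- An algebraic integer lying over infinitely many residue characteristics is zero. -/
theorem eq_zero_of_infinitely_many {z : ℂ} (hz : IsIntegral ℤ z)
    (h : ∀ n : ℕ, ∃ l > n, l.Prime ∧ ∃ O : ValuationSubring ℂ, CharP (ResidueField O) l ∧
      z ∈ O.nonunits) : z = 0 := by
  by_contra hz0
  set q := minpoly ℤ z
  have hc : q.coeff 0 ≠ 0 := fun hc => minpoly.coeff_zero_ne_zero (hz.tower_top (A := ℚ)) hz0 (by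
    rw [minpoly.isIntegrallyClosed_eq_field_fractions' ℚ hz, Polynomial.coeff_map, hc, map_zero])
  obtain ⟨l, hl, hlp, O, hchar, hzO⟩ := h (q.coeff 0).natAbs
  obtain ⟨hzmem, hznu⟩ : ∃ hzmem : z ∈ O, (⟨z, hzmem⟩ : O) ∈ maximalIdeal O :=
    ValuationSubring.mem_nonunits_iff_exists_mem_maximalIdeal.1 hzO
  have h0 : (aeval (⟨z, hzmem⟩ : O)) q = 0 := Subtype.val_injective (by
    change O.subtype (aeval (⟨z, hzmem⟩ : O) q) = O.subtype 0
    rw [map_zero, Polynomial.aeval_def, Polynomial.hom_eval₂]
    have e : (O.subtype.comp (algebraMap ℤ O)) = algebraMap ℤ ℂ := RingHom.ext_int _ _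
    rw [e]
    exact minpoly.aeval ℤ z)
  have h1 : ((q.coeff 0 : ℤ) : ResidueField O) = 0 := by
    have := congrArg (residue O) h0
    rw [map_zero, Polynomial.aeval_def, Polynomial.hom_eval₂,
      (IsLocalRing.residue_eq_zero_iff _).2 hznu, Polynomial.eval₂_at_zero] at this
    simpa using this
  rw [CharP.intCast_eq_zero_iff _ l, Int.natCast_dvd] at h1
  exact absurd (Nat.le_of_dvd (Int.natAbs_pos.2 hc) h1) (by omega)

end Fermat.Agent.DeligneSerre
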