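import Fermat.Agent.DeligneSerre.Algebra.Quadratic
import Fermat.Agent.DeligneSerre.Algebra.Place

/-!
# Lifting semisimple representations of groups of order prime to `l`

A semisimple two-dimensional representation over the residue field of a place of `ℂ` of a finite
group of order `< l` lifts, as far as trace and determinant go, to a complex representation.
-/

set_option autoImplicit false

noncomputable section

open IsLocalRing Polynomial Matrix

namespace Fermat.Agent.DeligneSerre

variable (O : ValuationSubring ℂ)

/-- Roots of unity of order prime to the residue characteristic are determined by their residue. -/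
theorem root_eq_of_residue_eq {n : ℕ} (hn : (n : ResidueField O) ≠ 0) {α β : O} (hα : α ^ n = 1)
    (hβ : β ^ n = 1) (h : residue O α = residue O β) : α = β := by
  have hn0 : n ≠ 0 := fun h0 => hn (by rw [h0, Nat.cast_zero])
  set γ := α * β ^ (n - 1)
  have hγ : γ ^ n = 1 := by
    rw [mul_pow, hα, one_mul, ← pow_mul, mul_comm (n - 1), pow_mul, hβ, one_pow]
  have hβ' : β ^ (n - 1) * β = 1 := by
    rw [← pow_succ, Nat.sub_add_cancel (Nat.pos_of_ne_zero hn0), hβ]
  have hres : residue O γ = 1 := by
    rw [map_mul, h, ← map_mul, mul_comm, hβ', map_one]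
  have hγ1 : γ = 1 := by
    by_contra hne
    have hsum : ∑ i ∈ Finset.range n, γ ^ i = 0 := by
      have := geom_sum_mul γ n
      rw [hγ, sub_self] at this
      exact (mul_eq_zero.1 this).resolve_right (sub_ne_zero.2 hne)
    have := congrArg (residue O) hsum
    simp only [map_sum, map_pow, hres, one_pow, Finset.sum_const, Finset.card_range, nsmul_eq_mul,
      mul_one, map_zero] at this
    exact hn this
  calc α = α * (β ^ (n - 1) * β) := by rw [hβ', mul_one]
    _ = γ * β := by rw [mul_assoc]
    _ = β := by rw [hγ1, one_mul]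

/-- The lift of a root of unity. -/
theorem exists_root_lift {n : ℕ} (hn : (n : ResidueField O) ≠ 0) {x : ResidueField O}
    (hx : x ^ n = 1) : ∃ α : O, α ^ n = 1 ∧ residue O α = x := by
  classical
  have : NeZero n := ⟨fun h0 => hn (by rw [h0, Nat.cast_zero])⟩
  obtain ⟨ζ, hζ⟩ := HasEnoughRootsOfUnity.exists_primitiveRoot ℂ n
  set z : O := ⟨ζ, mem_of_isIntegral_int O (hζ.isIntegral (NeZero.pos n))⟩
  have hz : IsPrimitiveRoot z n :=
    IsPrimitiveRoot.of_map_of_injective (f := O.subtype) hζ Subtype.val_injective
  have hzn : IsPrimitiveRoot (residue O z) n := by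
    refine IsPrimitiveRoot.mk_of_lt _ (NeZero.pos n) (by rw [← map_pow, hz.pow_eq_one, map_one]) ?_
    intro j hj hjn h
    rw [← map_pow, ← map_one (residue O)] at h
    exact hz.pow_ne_one_of_pos_of_lt hj.ne' hjn (root_eq_of_residue_eq O hn
      (by rw [← pow_mul, mul_comm, pow_mul, hz.pow_eq_one, one_pow]) (one_pow n) h)
  obtain ⟨i, -, rfl⟩ := hzn.eq_pow_of_pow_eq_one hx
  exact ⟨z ^ i, by rw [← pow_mul, mul_comm, pow_mul, hz.pow_eq_one, one_pow], map_pow _ _ _⟩

/-- Left translation as a permutation matrix. -/
def translate (R : Type*) [CommRing R] {G : Type*} [Group G] [Fintype G] [DecidableEq G] :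
    G →* Matrix G G R where
  toFun g := Matrix.of fun x y => if x = g * y then 1 else 0
  map_one' := by ext x y; simp [Matrix.one_apply]
  map_mul' g h := by
    ext x y
    simp [Matrix.mul_apply, mul_assoc]

theorem translate_mul_apply {R : Type*} [CommRing R] {G : Type*} [Group G] [Fintype G]
    [DecidableEq G] (g : G) (M : Matrix G G R) (x y : G) :
    (translate R g * M) x y = M (g⁻¹ * x) y := by
  simp only [translate, MonoidHom.coe_mk, OneHom.coe_mk, Matrix.mul_apply, Matrix.of_apply]
  rw [Finset.sum_eq_single (g⁻¹ * x)]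
  · simp
  · intro b _ hb
    rw [if_neg (fun h => hb (by rw [h, inv_mul_cancel_left])), zero_mul]
  · simp

theorem mul_translate_apply {R : Type*} [CommRing R] {G : Type*} [Group G] [Fintype G]
    [DecidableEq G] (g : G) (M : Matrix G G R) (x y : G) :
    (M * translate R g) x y = M x (g * y) := by
  simp [translate, Matrix.mul_apply]

theorem translate_map {R S : Type*} [CommRing R] [CommRing S] (f : R →+* S) {G : Type*} [Group G]
    [Fintype G] [DecidableEq G] (g : G) : (translate R g).map f = translate S g := by
  ext x y
  simp [translate, apply_ite f]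

/-- **Schur orthogonality** for a representation spanning all matrices. -/
theorem schur_orth {k : Type*} [Field k] (h2 : (2 : k) ≠ 0) {G : Type*} [Group G] [Fintype G]
    (ι : G →* Matrix (Fin 2) (Fin 2) k) (hspan : Submodule.span k (Set.range ι) = ⊤)
    (a b c d : Fin 2) :
    ∑ g, ι g a b * ι g⁻¹ c d = if a = d ∧ b = c then (Fintype.card G : k) / 2 else 0 := by
  classical
  set X : Matrix (Fin 2) (Fin 2) k := Matrix.single b c 1
  set Y := ∑ g, ι g * X * ι g⁻¹
  have hY : ∀ Z, Z * Y = Y * Z := fun Z => by
    have hZ : Z ∈ Submodule.span k (Set.range ι) := by rw [hspan]; trivial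
    induction hZ using Submodule.span_induction with
    | mem z h =>
      obtain ⟨s, rfl⟩ := h
      simp only [Y, Finset.mul_sum, Finset.sum_mul]
      refine Fintype.sum_equiv (Equiv.mulLeft s) _ _ fun g => ?_
      simp only [Equiv.coe_mulLeft, map_mul, _root_.mul_inv_rev, Matrix.mul_assoc]
      rw [← map_mul ι s⁻¹ s, inv_mul_cancel, map_one, Matrix.mul_one]
    | zero => simp
    | add u v _ _ hu hv => rw [add_mul, mul_add, hu, hv]
    | smul r u _ hu => rw [smul_mul_assoc, mul_smul_comm, hu]
  have h01 := congrFun (congrFun (hY (Matrix.single 0 1 1)) 0) 1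
  have h10 := congrFun (congrFun (hY (Matrix.single 0 1 1)) 0) 0
  have h11 := congrFun (congrFun (hY (Matrix.single 1 0 1)) 0) 0
  simp [Matrix.mul_apply, Matrix.single] at h01 h10 h11
  have htr : Y.trace = (Fintype.card G : k) * X.trace := by
    simp only [Y, Matrix.trace_sum]
    rw [Finset.sum_congr rfl fun g _ => show (ι g * X * ι g⁻¹).trace = X.trace by
      rw [Matrix.trace_mul_cycle, ← map_mul, inv_mul_cancel, map_one, Matrix.one_mul],
      Finset.sum_const, Finset.card_univ, nsmul_eq_mul]
  have hXtr : X.trace = if b = c then 1 else 0 := by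
    fin_cases b <;> fin_cases c <;> simp [X, Matrix.trace_fin_two, Matrix.single]
  rw [Matrix.trace_fin_two, hXtr] at htr
  have hval : Y a d = if a = d ∧ b = c then (Fintype.card G : k) / 2 else 0 := by
    by_cases hbc : b = c
    · rw [if_pos hbc, mul_one] at htr
      fin_cases a <;> fin_cases d <;> simp [hbc] <;>
        first | assumption | exact h01.symm | exact h11.symm | exact h10.symm |
          (rw [eq_div_iff h2]; linear_combination htr + h01) |
          (rw [eq_div_iff h2]; linear_combination htr - h01)
    · rw [if_neg hbc, mul_zero] at htr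
      fin_cases a <;> fin_cases d <;> simp [hbc] <;>
        first | assumption | exact h01.symm | exact h11.symm | exact h10.symm |
          (refine mul_left_cancel₀ h2 ?_; linear_combination htr + h01) |
          (refine mul_left_cancel₀ h2 ?_; linear_combination htr - h01)
  rw [← hval]
  simp only [Y, Matrix.sum_apply]
  refine Finset.sum_congr rfl fun g _ => ?_
  rw [Matrix.mul_apply, Finset.sum_eq_single c]
  · simp [X, Matrix.mul_apply, Matrix.single]
  · intro j _ hj
    simp [X, Matrix.mul_apply, Matrix.single, Ne.symm hj]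
  · simp

variable {G : Type*} [Group G] [Fintype G]

/-- The lift in the irreducible case. -/
theorem exists_lift_irreducible {l : ℕ} [Fact l.Prime] [CharP (ResidueField O) l] (hl2 : 2 < l)
    (hG : Fintype.card G < l) (ι : G →* Matrix (Fin 2) (Fin 2) (ResidueField O))
    (hspan : Submodule.span (ResidueField O) (Set.range ι) = ⊤) :
    ∃ ρ : G →* Matrix (Fin 2) (Fin 2) ℂ, ∀ g, ∃ (ht : (ρ g).trace ∈ O),
      residue O ⟨(ρ g).trace, ht⟩ = (ι g).trace := by
  classical
  have : NeZero (Fintype.card G) := ⟨Fintype.card_ne_zero⟩
  have hcast : ∀ j : ℕ, 0 < j → j < l → (j : (ResidueField O)) ≠ 0 := fun j h1 h2 h => by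
    rw [CharP.cast_eq_zero_iff (ResidueField O) l] at h
    exact absurd (Nat.le_of_dvd h1 h) (by omega)
  have h2 : (2 : (ResidueField O)) ≠ 0 := by exact_mod_cast hcast 2 two_pos hl2
  have hn : (Fintype.card G : (ResidueField O)) ≠ 0 := hcast _ Fintype.card_pos hG
  set c : (ResidueField O) := 2 / (Fintype.card G : (ResidueField O))
  have horth := schur_orth h2 ι hspan
  set Eb : Matrix G G (ResidueField O) := Matrix.of fun x y => c * ι (x⁻¹ * y) 0 0
  have hEb : Eb * Eb = Eb := by
    ext x z
    simp only [Eb, Matrix.mul_apply, Matrix.of_apply]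
    calc ∑ y, c * ι (x⁻¹ * y) 0 0 * (c * ι (y⁻¹ * z) 0 0)
        = ∑ i, ∑ j, c * c * ι x⁻¹ 0 i * ι z j 0 * ∑ y, ι y i 0 * ι y⁻¹ 0 j := by
          simp only [map_mul, Matrix.mul_apply, Fin.sum_univ_two]
          simp only [Finset.mul_sum, ← Finset.sum_add_distrib]
          exact Finset.sum_congr rfl fun y _ => by ring
      _ = c * ι (x⁻¹ * z) 0 0 := by
          simp only [horth, map_mul, Matrix.mul_apply, Fin.sum_univ_two]
          simp [c]
          field_simp
  have hEbt : ∀ g, (translate (ResidueField O) g * Eb).trace = (ι g).trace := fun g => by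
    simp only [Matrix.trace, Matrix.diag_apply, translate_mul_apply]
    simp only [Eb, Matrix.of_apply, _root_.mul_inv_rev, inv_inv]
    calc ∑ x, c * ι (x⁻¹ * g * x) 0 0
        = ∑ i, ∑ j, c * ι g i j * ∑ x, ι x j 0 * ι x⁻¹ 0 i := by
          simp only [map_mul, Matrix.mul_apply, Fin.sum_univ_two]
          simp only [Finset.mul_sum, ← Finset.sum_add_distrib]
          exact Finset.sum_congr rfl fun y _ => by ring
      _ = _ := by
          simp only [horth, Fin.sum_univ_two]
          simp [c]
          field_simp
  choose φ hφ using fun g : G => residue_surjective (R := O) (c * ι g 0 0)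
  set E : Matrix G G O := Matrix.of fun x y => φ (x⁻¹ * y)
  have hEmap : E.map (residue O) = Eb := by ext x y; exact hφ _
  have hcomm : ∀ g, Commute (translate O g) E := fun g => by
    ext x y
    rw [translate_mul_apply, mul_translate_apply]
    simp [E, mul_assoc]
  -- the roots of the characteristic polynomial
  set P := E.charpoly
  set PC := P.map O.subtype
  have hPm : P.Monic := E.charpoly_monic
  have hroot : ∀ r ∈ PC.roots, r ∈ O := fun r hr => by
    obtain ⟨y, hy⟩ := IsIntegrallyClosed.algebraMap_eq_of_integral (R := O) (x := r)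
      ⟨P, hPm, by
        have := (Polynomial.mem_roots'.1 hr).2
        rwa [IsRoot.def, eval_map] at this⟩
    rw [← hy]
    exact y.2
  set rts : Multiset O := PC.roots.pmap (fun r h => (⟨r, h⟩ : O)) hroot
  have hP : P = (rts.map fun r => X - C r).prod := by
    refine Polynomial.map_injective O.subtype Subtype.val_injective ?_
    rw [Polynomial.map_multiset_prod, Multiset.map_map]
    have hr : rts.map (fun r : O => (r : ℂ)) = PC.roots := by
      rw [Multiset.map_pmap, Multiset.pmap_eq_map, Multiset.map_id']
    have := (IsAlgClosed.splits PC).eq_prod_roots_of_monic (hPm.map _)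
    rw [← hr, Multiset.map_map] at this
    refine this.trans (congrArg Multiset.prod (Multiset.map_congr rfl fun r _ => ?_))
    simp
  have hres01 : ∀ r ∈ rts, residue O r = 0 ∨ residue O r = 1 := by
    intro r hr
    have h0 : P.eval r = 0 := by
      rw [hP, Polynomial.eval_multiset_prod, Multiset.map_map]
      exact Multiset.prod_eq_zero (Multiset.mem_map.2 ⟨r, hr, by simp⟩)
    have h1 : (Eb.charpoly).eval (residue O r) = 0 := by
      rw [← hEmap, Matrix.charpoly_map, Polynomial.eval_map, Polynomial.eval₂_at_apply, h0,
        map_zero]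
    rw [Matrix.eval_charpoly] at h1
    obtain ⟨v, hv, hv0⟩ := Matrix.exists_mulVec_eq_zero_iff.2 h1
    rw [Matrix.sub_mulVec, sub_eq_zero, Matrix.scalar_apply, ← Matrix.smul_one_eq_diagonal,
      smul_mulVec, one_mulVec] at hv0
    have h2 := congrArg (Eb *ᵥ ·) hv0
    simp only [Matrix.mulVec_smul, Matrix.mulVec_mulVec, hEb] at h2
    rw [← hv0, smul_smul] at h2
    have h3 : (residue O r * residue O r - residue O r) • v = 0 := by
      rw [sub_smul, h2, sub_self]
    have h4 := (smul_eq_zero.1 h3).resolve_right hv
    rw [show residue O r * residue O r - residue O r = residue O r * (residue O r - 1) by ring,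
      mul_eq_zero, sub_eq_zero] at h4
    exact h4
  set s0 : Multiset O := 0 ::ₘ rts.filter fun r => residue O r = 0
  set s1 : Multiset O := 1 ::ₘ rts.filter fun r => ¬ residue O r = 0
  have hs0 : ∀ r ∈ s0, residue O r = 0 := fun r hr => by
    rcases Multiset.mem_cons.1 hr with rfl | hr
    · exact map_zero _
    · exact (Multiset.mem_filter.1 hr).2
  have hs1 : ∀ r ∈ s1, residue O r = 1 := fun r hr => by
    rcases Multiset.mem_cons.1 hr with rfl | hr
    · exact map_one _
    · exact (hres01 r (Multiset.mem_filter.1 hr).1).resolve_left (Multiset.mem_filter.1 hr).2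
  set P0 := (s0.map fun r => X - C r).prod
  set P1 := (s1.map fun r => X - C r).prod
  have hcop : IsCoprime P0 P1 := by
    have hpair : ∀ r ∈ s0, ∀ t ∈ s1, IsCoprime (X - C r : O[X]) (X - C t) := fun r hr t ht => by
      refine Polynomial.isCoprime_X_sub_C_of_isUnit_sub ?_
      by_contra hu
      have := (IsLocalRing.residue_eq_zero_iff _).2 (mem_nonunits_iff.2 hu)
      rw [map_sub, hs0 r hr, hs1 t ht, zero_sub, neg_eq_zero] at this
      exact one_ne_zero this
    have hgen : ∀ (s : Multiset O[X]) (q : O[X]), (∀ p ∈ s, IsCoprime p q) →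
      IsCoprime s.prod q := by
      intro s q hs
      induction s using Multiset.induction with
      | empty => rw [Multiset.prod_zero]; exact isCoprime_one_left
      | cons a s ih =>
        rw [Multiset.prod_cons]
        exact (hs a (Multiset.mem_cons_self a s)).mul_left
          (ih fun p hp => hs p (Multiset.mem_cons_of_mem hp))
    refine hgen _ _ fun p hp => ?_
    obtain ⟨r, hr, rfl⟩ := Multiset.mem_map.1 hp
    refine (hgen _ _ fun q hq => ?_).symm
    obtain ⟨t, ht, rfl⟩ := Multiset.mem_map.1 hq
    exact (hpair r hr t ht).symm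
  have hkill : aeval E (P0 * P1) = 0 := by
    obtain ⟨Q, hQ⟩ : P ∣ P0 * P1 := by
      refine ⟨(X - C 0) * (X - C 1), ?_⟩
      rw [hP, ← Multiset.filter_add_not (fun r => residue O r = 0) rts, Multiset.map_add,
        Multiset.prod_add]
      simp only [P0, P1, s0, s1, Multiset.map_cons, Multiset.prod_cons]
      ring
    rw [hQ, map_mul, E.aeval_self_charpoly, zero_mul]
  obtain ⟨u, v, huv⟩ := hcop
  set e : Matrix G G O := aeval E (u * P0)
  have hee : e * e = e := by
    have h1 : u * P0 * (u * P0) = u * P0 - u * v * (P0 * P1) := by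
      linear_combination (u * P0) * huv
    have := congrArg (aeval E) h1
    rw [map_mul, map_sub, map_mul (aeval E) (u * v), hkill, mul_zero, sub_zero] at this
    exact this
  have hered : e.map (residue O) = Eb := by
    have hmap : ∀ q : O[X], (aeval E q).map (residue O) = aeval Eb (q.map (residue O)) := by
      intro q
      induction q using Polynomial.induction_on' with
      | add p q hp hq =>
        rw [map_add, Polynomial.map_add, map_add, ← hp, ← hq, Matrix.map_add _ (map_add _)]
      | monomial n r =>
        rw [Polynomial.map_monomial, aeval_monomial, aeval_monomial, ← hEmap]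
        change (residue O).mapMatrix (algebraMap O _ r * E ^ n) = _
        rw [map_mul, map_pow]
        congr 1
        ext i j
        simp [Matrix.algebraMap_matrix_apply, apply_ite (residue O)]
    have hX0 : P0.map (residue O) = X ^ s0.card := by
      rw [Polynomial.map_multiset_prod, Multiset.map_map, ← Multiset.prod_replicate,
        ← Multiset.map_const']
      refine congrArg Multiset.prod (Multiset.map_congr rfl fun r hr => ?_)
      simp [hs0 r hr]
    have hX1 : P1.map (residue O) = (X - 1) ^ s1.card := by
      rw [Polynomial.map_multiset_prod, Multiset.map_map, ← Multiset.prod_replicate,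
        ← Multiset.map_const']
      refine congrArg Multiset.prod (Multiset.map_congr rfl fun r hr => ?_)
      simp [hs1 r hr]
    have hid := congrArg (fun q => aeval Eb (q.map (residue O))) huv
    simp only [Polynomial.map_add, Polynomial.map_mul, hX0, hX1, Polynomial.map_one,
      map_add, map_mul,
      map_pow, map_one, map_sub, aeval_X] at hid
    have hidem : IsIdempotentElem Eb := hEb
    have hpow0 : Eb ^ s0.card = Eb := by
      rw [show s0.card = (rts.filter fun r => residue O r = 0).card + 1 from Multiset.card_cons _ _]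
      exact hidem.pow_succ_eq _
    have hpow1 : (Eb - 1) ^ s1.card * Eb = 0 := by
      rw [show s1.card = (rts.filter fun r => ¬ residue O r = 0).card + 1 from
        Multiset.card_cons _ _,
        pow_succ, mul_assoc, sub_mul, hEb, one_mul, sub_self, mul_zero]
    have := congrArg (· * Eb) hid
    simp only [add_mul, one_mul, mul_assoc, hpow1, mul_zero, add_zero] at this
    rw [hpow0, hEb] at this
    change (aeval E (u * P0)).map (residue O) = Eb
    rw [hmap, Polynomial.map_mul, hX0, map_mul, map_pow, aeval_X, hpow0]
    exact this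
  have hecomm : ∀ g, Commute (translate O g) e := fun g => by
    change Commute (translate O g) (aeval E (u * P0))
    generalize u * P0 = q
    induction q using Polynomial.induction_on' with
    | add p q hp hq => rw [map_add]; exact hp.add_right hq
    | monomial n r =>
      rw [aeval_monomial]
      exact (Algebra.commute_algebraMap_right r _).mul_right ((hcomm g).pow_right n)
  -- over `ℂ`
  set eC : Matrix G G ℂ := e.map O.subtype
  have heC : eC * eC = eC := by
    change O.subtype.mapMatrix e * O.subtype.mapMatrix e = O.subtype.mapMatrix e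
    rw [← map_mul, hee]
  have hcommC : ∀ g, Commute (translate ℂ g) eC := fun g => by
    have h := (hecomm g).map O.subtype.mapMatrix
    rwa [show O.subtype.mapMatrix (translate O g) = translate ℂ g from translate_map _ g] at h
  set V := LinearMap.range (Matrix.toLin' eC)
  have hstab : ∀ g, ∀ x ∈ V, Matrix.toLin' (translate ℂ g) x ∈ V := by
    rintro g _ ⟨y, rfl⟩
    refine ⟨Matrix.toLin' (translate ℂ g) y, ?_⟩
    rw [← Matrix.toLin'_mul_apply, ← Matrix.toLin'_mul_apply, (hcommC g).eq]
  have hfix : ∀ x ∈ V, Matrix.toLin' eC x = x := by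
    rintro _ ⟨y, rfl⟩
    rw [← Matrix.toLin'_mul_apply, heC]
  have htrace : ∀ g (h : ∀ x ∈ V, Matrix.toLin' (translate ℂ g) x ∈ V),
      LinearMap.trace ℂ V ((Matrix.toLin' (translate ℂ g)).restrict h) =
        ((translate O g * e).trace : ℂ) := by
    intro g h
    have hf : ∀ x, Matrix.toLin' (translate ℂ g * eC) x ∈ V := fun x => by
      rw [Matrix.toLin'_mul_apply]; exact h _ ⟨x, rfl⟩
    have h1 := LinearMap.trace_restrict_eq_of_forall_mem V (Matrix.toLin' (translate ℂ g * eC)) hf
    have h2 : (Matrix.toLin' (translate ℂ g * eC)).restrict (fun x _ => hf x) =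
        (Matrix.toLin' (translate ℂ g)).restrict h := by
      ext x
      change Matrix.toLin' (translate ℂ g * eC) x.1 _ = Matrix.toLin' (translate ℂ g) x.1 _
      rw [Matrix.toLin'_mul_apply, hfix x.1 x.2]
    rw [h2] at h1
    rw [h1, LinearMap.trace_eq_matrix_trace ℂ (Pi.basisFun ℂ G), LinearMap.toMatrix_eq_toMatrix',
      LinearMap.toMatrix'_toLin']
    change _ = O.subtype.toAddMonoidHom (translate O g * e).trace
    rw [AddMonoidHom.map_trace O.subtype.toAddMonoidHom]
    change _ = (O.subtype.mapMatrix (translate O g * e)).trace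
    rw [map_mul, show O.subtype.mapMatrix (translate O g) = translate ℂ g from translate_map _ g]
    rfl
  have hres : ∀ g, residue O (translate O g * e).trace = (ι g).trace := fun g => by
    rw [← hEbt g]
    change (residue O).toAddMonoidHom _ = _
    rw [AddMonoidHom.map_trace]
    change ((residue O).mapMatrix (translate O g * e)).trace = _
    rw [map_mul, show (residue O).mapMatrix (translate O g) = translate (ResidueField O) g from
      translate_map _ g]
    exact congrArg (fun M => (translate (ResidueField O) g * M).trace) hered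
  have hdim : Module.finrank ℂ V = 2 := by
    have h1 := htrace 1 (hstab 1)
    rw [show (Matrix.toLin' (translate ℂ (1 : G))).restrict (hstab 1) = (1 : Module.End ℂ V) from by
      ext x; simp, LinearMap.trace_one, map_one, one_mul] at h1
    have h2' := hres 1
    rw [map_one, one_mul, map_one, Matrix.trace_one, Fintype.card_fin] at h2'
    have h3 : e.trace = (Module.finrank ℂ V : O) :=
      Subtype.val_injective (h1.symm.trans (map_natCast O.subtype _).symm)
    rw [h3, map_natCast] at h2'
    have hle : Module.finrank ℂ V ≤ Fintype.card G := by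
      have := Submodule.finrank_le V
      rwa [Module.finrank_pi] at this
    exact CharP.natCast_injOn_Iio (ResidueField O) l (Set.mem_Iio.2 (by omega))
      (Set.mem_Iio.2 hl2) h2'
  set b := Module.finBasisOfFinrankEq ℂ V hdim
  let ρ : G →* Matrix (Fin 2) (Fin 2) ℂ :=
    { toFun := fun g => LinearMap.toMatrix b b ((Matrix.toLin' (translate ℂ g)).restrict (hstab g))
      map_one' := by
        rw [show (Matrix.toLin' (translate ℂ (1 : G))).restrict (hstab 1) =
          (1 : Module.End ℂ V) from
          by ext x; simp, LinearMap.toMatrix_one]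
      map_mul' := fun g h => by
        rw [← LinearMap.toMatrix_mul]
        congr 1
        ext x
        simp [map_mul] }
  refine ⟨ρ, fun g => ?_⟩
  have ht : (ρ g).trace = ((translate O g * e).trace : ℂ) := by
    rw [← htrace g (hstab g)]
    exact (LinearMap.trace_eq_matrix_trace ℂ b _).symm
  exact ⟨ht ▸ (translate O g * e).trace.2, by
    rw [← hres g]
    congr 1
    exact Subtype.ext ht⟩

/-- **Lifting traces and determinants.** -/
theorem exists_lift {l : ℕ} [Fact l.Prime] [CharP (ResidueField O) l] (hl2 : 2 < l)
    (hG : Fintype.card G < l) (ι : G →* Matrix (Fin 2) (Fin 2) (ResidueField O)) (hss : IsSS ι) :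
    ∃ ρ : G →* Matrix (Fin 2) (Fin 2) ℂ, ∀ g, ∃ (ht : (ρ g).trace ∈ O) (hd : (ρ g).det ∈ O),
      residue O ⟨(ρ g).trace, ht⟩ = (ι g).trace ∧ residue O ⟨(ρ g).det, hd⟩ = (ι g).det := by
  classical
  have hn : (Fintype.card G : ResidueField O) ≠ 0 := fun h => by
    rw [CharP.cast_eq_zero_iff _ l] at h
    exact absurd (Nat.le_of_dvd Fintype.card_pos h) (by omega)
  rcases hss with hdiag | hspan
  · have hentry : ∀ (i : Fin 2) (g h : G), ι (g * h) i i = ι g i i * ι h i i := fun i g h => by
      fin_cases i <;> simp [Matrix.mul_apply, Fin.sum_univ_two, (hdiag g).1, (hdiag g).2]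
    let χ : Fin 2 → G →* ResidueField O := fun i =>
      { toFun := fun g => ι g i i
        map_one' := by simp
        map_mul' := hentry i }
    have hlift : ∀ i g, ∃ α : O, α ^ Fintype.card G = 1 ∧ residue O α = χ i g := fun i g =>
      exists_root_lift O hn (by rw [← map_pow, pow_card_eq_one, map_one])
    choose α hα hαr using hlift
    let ψ : Fin 2 → G →* O := fun i =>
      { toFun := α i
        map_one' := root_eq_of_residue_eq O hn (hα i 1) (one_pow _) (by rw [hαr, map_one, map_one])
        map_mul' := fun g h => root_eq_of_residue_eq O hn (hα i _)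
          (by rw [mul_pow, hα, hα, one_mul]) (by rw [map_mul, hαr, hαr, hαr, map_mul]) }
    let ρ : G →* Matrix (Fin 2) (Fin 2) ℂ :=
      { toFun := fun g => Matrix.diagonal fun i => ((ψ i g : O) : ℂ)
        map_one' := by simp
        map_mul' := fun g h => by rw [Matrix.diagonal_mul_diagonal]; simp }
    refine ⟨ρ, fun g => ?_⟩
    have ht : (ρ g).trace = ((ψ 0 g + ψ 1 g : O) : ℂ) := by simp [ρ]
    have hd : (ρ g).det = ((ψ 0 g * ψ 1 g : O) : ℂ) := by simp [ρ]
    refine ⟨ht ▸ SetLike.coe_mem _, hd ▸ SetLike.coe_mem _, ?_, ?_⟩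
    · rw [show (⟨(ρ g).trace, _⟩ : O) = ψ 0 g + ψ 1 g from Subtype.ext ht, map_add,
        Matrix.trace_fin_two]
      exact congrArg₂ (· + ·) (hαr 0 g) (hαr 1 g)
    · rw [show (⟨(ρ g).det, _⟩ : O) = ψ 0 g * ψ 1 g from Subtype.ext hd, map_mul,
        Matrix.det_fin_two, (hdiag g).1, zero_mul, sub_zero]
      exact congrArg₂ (· * ·) (hαr 0 g) (hαr 1 g)
  · obtain ⟨ρ, hρ⟩ := exists_lift_irreducible O hl2 hG ι hspan
    refine ⟨ρ, fun g => ?_⟩
    obtain ⟨ht, htr⟩ := hρ g
    obtain ⟨ht2, htr2⟩ := hρ (g * g)
    have hd : (ρ g).det ∈ O := mem_of_isIntegral_int O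
      (IsIntegral.of_pow (n := Fintype.card G) Fintype.card_pos (by
        rw [← Matrix.det_pow, ← map_pow, pow_card_eq_one, map_one, Matrix.det_one]
        exact isIntegral_one))
    refine ⟨ht, hd, htr, ?_⟩
    have hid : ∀ {S : Type} [CommRing S] (M : Matrix (Fin 2) (Fin 2) S),
        2 * M.det = M.trace ^ 2 - (M * M).trace := fun M => by
      simp only [Matrix.det_fin_two, Matrix.trace_fin_two, Matrix.mul_apply, Fin.sum_univ_two]
      ring
    have h1 : (2 : O) * ⟨(ρ g).det, hd⟩ =
        ⟨(ρ g).trace, ht⟩ ^ 2 - ⟨(ρ (g * g)).trace, ht2⟩ := Subtype.ext (by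
      rw [map_mul] at *
      have h2C : ((2 : O) : ℂ) = 2 := map_ofNat O.subtype 2
      simpa [h2C] using hid (ρ g))
    have h3 := congrArg (residue O) h1
    rw [map_mul, map_sub, map_pow, htr, htr2, map_mul ι, map_ofNat, ← hid] at h3
    refine mul_left_cancel₀ ?_ h3
    intro h
    have h' : ((2 : ℕ) : ResidueField O) = 0 := by exact_mod_cast h
    rw [CharP.cast_eq_zero_iff _ l] at h'
    exact absurd (Nat.le_of_dvd two_pos h') (by omega)

end Fermat.Agent.DeligneSerre
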