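import Fermat.Agent.DeligneSerre.Algebra.Level
import Fermat.Agent.DeligneSerre.Algebra.Basic
import Fermat.Agent.DeligneSerre.Algebra.GroupBound
import Fermat.Agent.DeligneSerre.Algebra.Lift
import Fermat.Agent.DeligneSerre.Algebra.Arith

/-!
# The residual images are bounded and lift

Rankin's bound shows that, outside a set of primes of small density, the pairs `(a p, e p)` take
finitely many values. So the residual images are bounded and lift to complex representations whose
values have order dividing a fixed number.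
-/

set_option autoImplicit false

noncomputable section

open Filter Topology Matrix IsLocalRing

namespace Fermat.Agent.DeligneSerre

local notation "ℚbar" => AlgebraicClosure ℚ
local notation "Γ" => AlgebraicClosure ℚ ≃ₐ[ℚ] AlgebraicClosure ℚ

/-- The bound on `∑ |τ a_p|² p⁻ˢ`. -/
def RankinBound {R : Subalgebra ℤ ℂ} (N : ℕ) (a : ℕ → R) : Prop :=
  ∀ τ : R →+* ℂ, ∃ C : ℝ, ∀ᶠ s in 𝓝[>] (1 : ℝ),
    (Summable fun p : Nat.Primes =>
      if (p : ℕ) ∣ N then 0 else Complex.normSq (τ (a p)) * ((p : ℕ) : ℝ) ^ (-s)) ∧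
    (∑' p : Nat.Primes,
      if (p : ℕ) ∣ N then 0 else Complex.normSq (τ (a p)) * ((p : ℕ) : ℝ) ^ (-s)) ≤
      -Real.log (s - 1) + C

/-- A representation whose values are congruent to `a`, `e` at a place. -/
structure IsCongrAt {R : Subalgebra ℤ ℂ} (N l n : ℕ) (a e : ℕ → R) (O : ValuationSubring ℂ)
    (ρ : Γ →* Matrix (Fin 2) (Fin 2) ℂ) : Prop where
  level : GaloisFactorsThroughFiniteLevel ρ
  pow : ∀ g, ρ g ^ n = 1
  inertia : ∀ p : ℕ, p.Prime → ¬ p ∣ N * l → ∀ A : ValuationSubring ℚbar, A.LiesOverPrime p →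
    ∀ τ ∈ A.inertiaSubgroupIn ℚ, ρ τ = 1
  frob : ∀ p : ℕ, p.Prime → ¬ p ∣ N * l → ∀ A : ValuationSubring ℚbar, A.LiesOverPrime p →
    ∀ τ : Γ, A.IsFrobeniusAt τ p →
      (a p : ℂ) - (ρ τ).trace ∈ O.nonunits ∧ (e p : ℂ) - (ρ τ).det ∈ O.nonunits

theorem residual_at_place {l : ℕ} [Fact l.Prime] {N : ℕ} [NeZero N] {k : Type} [Field k]
    [IsAlgClosed k] [CharP k l] {a e : ℕ → ZMod l} (h : ModRep l N a e) :
    ∃ σ : Γ →* Matrix (Fin 2) (Fin 2) k, GaloisFactorsThroughFiniteLevel σ ∧ IsSS σ ∧
      ∀ p : ℕ, p.Prime → ¬ p ∣ N * l → ∀ A : ValuationSubring ℚbar, A.LiesOverPrime p →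
        (∀ τ ∈ A.inertiaSubgroupIn ℚ, σ τ = 1) ∧
        ∀ τ : Γ, A.IsFrobeniusAt τ p →
          (σ τ).trace = ((a p).val : k) ∧ (σ τ).det = ((e p).val : k) := by
  obtain ⟨σ₀, hlev, hss, hloc⟩ := exists_residual h
  let : Algebra (ZMod l) k := ZMod.algebra k l
  let j : AlgebraicClosure (ZMod l) →+* k := (IsAlgClosed.lift (M := k) (R := ZMod l)).toRingHom
  let σ : Γ →* Matrix (Fin 2) (Fin 2) k := (RingHom.mapMatrix j).toMonoidHom.comp σ₀
  have hσ : ∀ g, σ g = (σ₀ g).map j := fun g => rfl
  have hj : ∀ x : ZMod l, j (algebraMap (ZMod l) _ x) = (x.val : k) := fun x => by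
    conv_lhs => rw [← ZMod.natCast_zmod_val x, map_natCast, map_natCast]
  refine ⟨σ, ?_, ?_, fun p hp hpN A hA => ⟨fun τ hτ => ?_, fun τ hτ => ?_⟩⟩
  · obtain ⟨L, hL, h1⟩ := hlev
    exact ⟨L, hL, fun g hg => by rw [hσ, h1 g hg]; exact map_one (RingHom.mapMatrix j)⟩
  · rcases hss with hd | hspan
    · exact Or.inl fun g => ⟨by simp [hσ, (hd g).1], by simp [hσ, (hd g).2]⟩
    · refine Or.inr (eq_top_iff.2 fun X _ => ?_)
      have hmap : ∀ Y ∈ Submodule.span (AlgebraicClosure (ZMod l)) (Set.range σ₀),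
        Y.map j ∈ Submodule.span k (Set.range σ) := by
        intro Y hY
        induction hY using Submodule.span_induction with
        | mem y hy => obtain ⟨g, rfl⟩ := hy; exact Submodule.subset_span ⟨g, rfl⟩
        | zero => simp
        | add u v _ _ hu hv => rw [Matrix.map_add _ (map_add j)]; exact add_mem hu hv
        | smul r u _ hu =>
          rw [show (r • u).map j = j r • u.map j from Matrix.ext fun i i' => map_mul j _ _]
          exact Submodule.smul_mem _ _ hu
      rw [Matrix.matrix_eq_sum_single X]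
      refine Submodule.sum_mem _ fun i _ => Submodule.sum_mem _ fun i' _ => ?_
      have h1 := hmap (Matrix.single i i' 1) (by rw [hspan]; trivial)
      rw [Matrix.map_single, map_one] at h1
      have h2 := Submodule.smul_mem _ (X i i') h1
      simpa using h2
  · rw [hσ, (hloc p hp hpN A hA).1 τ hτ]
    exact map_one (RingHom.mapMatrix j)
  · obtain ⟨ht, hd⟩ := (hloc p hp hpN A hA).2 τ hτ
    rw [← hj, ← hj, ← ht, ← hd, hσ]
    exact ⟨(AddMonoidHom.map_trace j.toAddMonoidHom _).symm, (RingHom.map_det j _).symm⟩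

/-- **Uniformly bounded lifts.** -/
theorem exists_order_bound {N : ℕ} [NeZero N] {R : Subalgebra ℤ ℂ} [Module.Finite ℤ R]
    (a e : ℕ → R) (he : ∃ k > 0, ∀ p : ℕ, p.Prime → ¬ p ∣ N → e p ^ k = 1)
    (hB : RankinBound N a) :
    ∃ n l₁ : ℕ, 0 < n ∧ ∀ (l : ℕ) [Fact l.Prime], l₁ < l → ∀ π : R →+* ZMod l,
      ModRep l N (fun p => π (a p)) (fun p => π (e p)) →
      ∃ (O : ValuationSubring ℂ) (_ : CharP (ResidueField O) l)
        (ρ : Γ →* Matrix (Fin 2) (Fin 2) ℂ), IsCongrAt N l n a e O ρ := by
  classical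
  obtain ⟨ι, _, τι, hfin⟩ := exists_finite_bounded R
  obtain ⟨k, hk, he⟩ := he
  set c : ℝ := 8 * ((Fintype.card ι : ℝ) + 1) with hc
  have hcpos : 0 < c := by positivity
  set Sab : Finset (R × R) := (hfin c).toFinset ×ˢ (Polynomial.nthRoots k (1 : R)).toFinset
  set M := 2 * Sab.card + 1
  set A := (8 * M).factorial * (8 * M)
  refine ⟨A.factorial, max (4 * M) A + 2, Nat.factorial_pos _, fun l _ hl π hmod => ?_⟩
  have hlp : l.Prime := Fact.out
  obtain ⟨O, hchar, hres⟩ := exists_place R π
  have := isAlgClosed_residue O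
  obtain ⟨σ, hlev, hss, hloc⟩ := residual_at_place (k := ResidueField O) hmod
  obtain ⟨E, _, _, σE, hσE⟩ := exists_factor σ hlev
  have : NumberField E := ⟨⟩
  set V : Finset (ResidueField O × ResidueField O) :=
    Sab.image fun z => (((π z.1).val : ResidueField O), ((π z.2).val : ResidueField O))
  set inv2 : ResidueField O × ResidueField O → ResidueField O × ResidueField O :=
    fun z => (z.1 / z.2, z.2⁻¹)
  set P := V ∪ V.image inv2
  set val : (E ≃ₐ[ℚ] E) → ResidueField O × ResidueField O := fun x => ((σE x).trace, (σE x).det)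
  have hdet0 : ∀ x, (σE x).det ≠ 0 := det_rep_ne_zero σE
  have hval : ∀ x, val x⁻¹ = inv2 (val x) := fun x =>
    Prod.ext (trace_det_inv σE x).1 (trace_det_inv σE x).2
  have hinvol : ∀ x, val x ∈ P → val x⁻¹ ∈ P := by
    intro x hx
    rw [hval]
    rcases Finset.mem_union.1 hx with hx | hx
    · exact Finset.mem_union_right _ (Finset.mem_image_of_mem inv2 hx)
    · obtain ⟨z, hz, hzx⟩ := Finset.mem_image.1 hx
      rw [← hzx]
      have hz2 : z.2 ≠ 0 := fun h0 => hdet0 x (by
        have := congrArg Prod.snd hzx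
        simp only [inv2, h0] at this
        exact this.symm.trans _root_.inv_zero)
      refine Finset.mem_union_left _ ?_
      have : inv2 (inv2 z) = z := by
        simp only [inv2]
        ext
        · field_simp
        · simp
      rwa [this]
  set f : (E ≃ₐ[ℚ] E) → ℝ := fun x => if val x ∈ P then 0 else 1
  set g : Nat.Primes → ℝ := fun p =>
    if (p : ℕ) ∣ N then 0 else if ∃ i, c < Complex.normSq (τι i (a p)) then 1 else 0
  have hNl : N * l ≠ 0 := mul_ne_zero (NeZero.ne N) hlp.ne_zero
  choose Ci hCi using fun i => hB (τι i)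
  have hmean := mean_le E f (fun x => by simp only [f]; split_ifs <;> norm_num)
    (fun x y => by
      simp only [f]
      rw [show val (y * x * y⁻¹) = val x from
        Prod.ext (trace_det_conj σE x y).1 (trace_det_conj σE x y).2])
    (fun x => by
      simp only [f]
      have h1 : val x ∈ P ↔ val x⁻¹ ∈ P := ⟨hinvol x, fun h => by simpa using hinvol x⁻¹ h⟩
      rw [if_congr h1.symm rfl rfl])
    (show (0 : ℝ) < 1 / 2 by norm_num) (N * l).divisors g
    (fun p => by simp only [g]; split_ifs <;> norm_num)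
    (fun p hp B hBp τ hτ => by
      have hpN : ¬ (p : ℕ) ∣ N * l := fun h => hp (Nat.mem_divisors.2 ⟨h, hNl⟩)
      have hpN' : ¬ (p : ℕ) ∣ N := fun h => hpN (h.mul_right l)
      simp only [g, if_neg hpN']
      split_ifs with hX
      · simp only [f]; split_ifs <;> norm_num
      · push Not at hX
        simp only [f]
        rw [if_pos]
        refine Finset.mem_union_left _ (Finset.mem_image.2 ⟨(a p, e p), ?_, ?_⟩)
        · refine Finset.mem_product.2 ⟨(hfin c).mem_toFinset.2 hX, ?_⟩
          rw [Multiset.mem_toFinset, Polynomial.mem_nthRoots hk]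
          exact he p p.2 hpN'
        · obtain ⟨ht, hd⟩ := (hloc p p.2 hpN B hBp).2 τ hτ
          simp only [val, hσE, ht, hd])
    (y := 1 / 8) ⟨(∑ i, |Ci i|) / c, by
      filter_upwards [Filter.eventually_all.2 hCi, Ioo_mem_nhdsGT (one_lt_two (α := ℝ))]
        with s hs hs12
      set L : ℝ := -Real.log (s - 1)
      have hL : 0 ≤ L := neg_nonneg.2 (Real.log_nonpos (by linarith [hs12.1])
        (by linarith [hs12.2]))
      have hgs : Summable fun p : Nat.Primes => g p * ((p : ℕ) : ℝ) ^ (-s) :=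
        Summable.of_nonneg_of_le
          (fun p => mul_nonneg (by simp only [g]; split_ifs <;> norm_num)
            (Real.rpow_nonneg (Nat.cast_nonneg _) _))
          (fun p => mul_le_of_le_one_left (Real.rpow_nonneg (Nat.cast_nonneg _) _)
            (by simp only [g]; split_ifs <;> norm_num))
          (Nat.Primes.summable_rpow.2 (neg_lt_neg hs12.1))
      refine ⟨hgs, ?_⟩
      have hle : ∀ p : Nat.Primes, g p * ((p : ℕ) : ℝ) ^ (-s) ≤ (∑ i,
          if (p : ℕ) ∣ N then 0 else Complex.normSq (τι i (a p)) * ((p : ℕ) : ℝ) ^ (-s)) / c := by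
        intro p
        have h0 : 0 ≤ ((p : ℕ) : ℝ) ^ (-s) := Real.rpow_nonneg (Nat.cast_nonneg _) _
        simp only [g]
        by_cases hpN : (p : ℕ) ∣ N
        · simp [hpN]
        simp only [if_neg hpN]
        rw [← Finset.sum_mul, le_div_iff₀ hcpos]
        by_cases hX : ∃ i, c < Complex.normSq (τι i (a p))
        · obtain ⟨i, hi⟩ := hX
          rw [if_pos ⟨i, hi⟩, one_mul, mul_comm]
          exact mul_le_mul_of_nonneg_right (hi.le.trans (Finset.single_le_sum
            (fun j _ => Complex.normSq_nonneg (τι j (a p))) (Finset.mem_univ i))) h0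
        · rw [if_neg hX, zero_mul, zero_mul]
          exact mul_nonneg (Finset.sum_nonneg fun j _ => Complex.normSq_nonneg _) h0
      refine (Summable.tsum_le_tsum hle hgs
        ((summable_sum fun i _ => (hs i).1).div_const c)).trans ?_
      rw [tsum_div_const, Summable.tsum_finsetSum fun i _ => (hs i).1, div_le_iff₀ hcpos, add_mul,
        div_mul_cancel₀ _ hcpos.ne']
      refine (Finset.sum_le_sum fun i _ => (hs i).2.trans
        (add_le_add le_rfl (le_abs_self (Ci i)))).trans ?_
      rw [Finset.sum_add_distrib, Finset.sum_const, Finset.card_univ, nsmul_eq_mul]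
      refine add_le_add (le_of_le_of_eq ?_ (by ring : (c / 8) * L = 1 / 8 * L * c)) le_rfl
      exact mul_le_mul_of_nonneg_right (by rw [hc]; linarith) hL⟩
  -- the image
  have hEcard : (0 : ℝ) < Nat.card (E ≃ₐ[ℚ] E) := by exact_mod_cast Nat.card_pos
  have hbadE : 4 * (Finset.univ.filter fun x => ¬ val x ∈ P).card ≤ Nat.card (E ≃ₐ[ℚ] E) := by
    have hsum : ∑ x, f x = ((Finset.univ.filter fun x => ¬ val x ∈ P).card : ℝ) := by
      simp only [f]
      rw [Finset.sum_ite, Finset.sum_const_zero, zero_add, Finset.sum_const, nsmul_eq_mul, mul_one]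
    rw [hsum, ← mul_div_assoc, div_le_iff₀ hEcard] at hmean
    exact_mod_cast show (4 : ℝ) * ((Finset.univ.filter fun x => ¬ val x ∈ P).card : ℝ) ≤
      (Nat.card (E ≃ₐ[ℚ] E) : ℝ) by linarith
  set G := (E ≃ₐ[ℚ] E) ⧸ σE.ker
  have : Fintype G := Fintype.ofFinite G
  let ιG : G →* Matrix (Fin 2) (Fin 2) (ResidueField O) := QuotientGroup.lift σE.ker σE le_rfl
  have hιG : Function.Injective ιG := by
    intro x y
    induction x using QuotientGroup.induction_on with
    | H x =>
      induction y using QuotientGroup.induction_on with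
      | H y =>
        intro h
        rw [QuotientGroup.eq, MonoidHom.mem_ker, map_mul]
        change σE x = σE y at h
        rw [← h, ← map_mul, inv_mul_cancel, map_one]
  have hrange : Set.range ιG = Set.range σ := by
    refine Set.Subset.antisymm ?_ ?_
    · rintro _ ⟨x, rfl⟩
      induction x using QuotientGroup.induction_on with
      | H x =>
        obtain ⟨y, rfl⟩ := AlgEquiv.restrictNormalHom_surjective (E := ℚbar) (F := ℚ) (K₁ := E) x
        exact ⟨y, (hσE y).symm⟩
    · rintro _ ⟨y, rfl⟩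
      exact ⟨QuotientGroup.mk (AlgEquiv.restrictNormalHom E y), hσE y⟩
  have hssG : IsSS ιG := by
    rcases hss with hd | hspan
    · refine Or.inl fun x => ?_
      obtain ⟨y, hy⟩ : ιG x ∈ Set.range σ := hrange ▸ ⟨x, rfl⟩
      rw [← hy]
      exact hd y
    · exact Or.inr (by rw [hrange]; exact hspan)
  have hgood : 3 * Fintype.card G ≤
      4 * (Finset.univ.filter fun x => ((ιG x).trace, (ιG x).det) ∈ P).card := by
    have hker : 0 < Nat.card σE.ker := Nat.card_pos
    have hbad : (Finset.univ.filter fun x => ¬ val x ∈ P).card =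
        (Finset.univ.filter fun x : G => ¬ ((ιG x).trace, (ιG x).det) ∈ P).card *
          Nat.card σE.ker := by
      rw [← Nat.card_eq_finsetCard, ← Nat.card_eq_finsetCard, ← Nat.card_prod]
      refine Nat.card_congr ((Equiv.subtypeEquiv
        Subgroup.groupEquivQuotientProdSubgroup fun x => ?_).trans
        ((Equiv.subtypeProdEquivProd (p := fun x : G => x ∈ (Finset.univ.filter fun x : G =>
          ¬ ((ιG x).trace, (ιG x).det) ∈ P)) (q := fun _ => True)).trans
          (Equiv.prodCongr (Equiv.refl _) (Equiv.subtypeUnivEquiv fun _ => trivial))))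
      simp only [Finset.mem_filter, Finset.mem_univ, true_and, and_true]
      rfl
    have hE : Nat.card (E ≃ₐ[ℚ] E) = Fintype.card G * Nat.card σE.ker := by
      rw [Subgroup.card_eq_card_quotient_mul_card_subgroup σE.ker, Nat.card_eq_fintype_card]
    rw [hbad, hE, ← mul_assoc] at hbadE
    have h4 := Nat.le_of_mul_le_mul_right hbadE hker
    have hsplit := Finset.card_filter_add_card_filter_not (s := (Finset.univ : Finset G))
      (fun x => ((ιG x).trace, (ιG x).det) ∈ P)
    rw [Finset.card_univ] at hsplit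
    omega
  have hPcard : P.card ≤ M := by
    have h1 : V.card ≤ Sab.card := Finset.card_image_le
    have h2 : (V.image inv2).card ≤ Sab.card := Finset.card_image_le.trans h1
    refine (Finset.card_union_le V (V.image inv2)).trans ?_
    change V.card + (V.image inv2).card ≤ 2 * Sab.card + 1
    omega
  have hAG : Fintype.card G ≤ A := card_le_of_few_charpolys ιG hιG hssG
    (show 4 * M < l by omega) (Nat.le_add_left 1 _) P hPcard hgood
  obtain ⟨ρG, hρG⟩ := exists_lift O (show 2 < l by omega) (show Fintype.card G < l by omega) ιG hssG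
  let q : Γ →* G := (QuotientGroup.mk' σE.ker).comp (AlgEquiv.restrictNormalHom E)
  have hq : ∀ y, ιG (q y) = σ y := hσE
  have hqker : ∀ y, σ y = 1 → q y = 1 := fun y hy => hιG (by rw [hq, hy, map_one])
  refine ⟨O, hchar, ρG.comp q, ?_, fun y => ?_, fun p hp hpN B hBp τ hτ => ?_,
    fun p hp hpN B hBp τ hτ => ?_⟩
  · obtain ⟨L, hL, h1⟩ := hlev
    exact ⟨L, hL, fun y hy => by rw [MonoidHom.comp_apply, hqker y (h1 y hy), map_one]⟩
  · rw [MonoidHom.comp_apply, ← map_pow]
    obtain ⟨d, hd⟩ : Fintype.card G ∣ A.factorial := Nat.dvd_factorial Fintype.card_pos hAG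
    rw [hd, pow_mul, pow_card_eq_one, one_pow, map_one]
  · rw [MonoidHom.comp_apply, hqker τ ((hloc p hp hpN B hBp).1 τ hτ), map_one]
  · obtain ⟨ht, hd, htr, hdr⟩ := hρG (q τ)
    rw [hq] at htr hdr
    obtain ⟨h1, h2⟩ := (hloc p hp hpN B hBp).2 τ hτ
    rw [h1, ← hres] at htr
    rw [h2, ← hres] at hdr
    rw [← sub_eq_zero, ← map_sub, IsLocalRing.residue_eq_zero_iff,
      ← O.coe_mem_nonunits_iff] at htr hdr
    constructor
    · rw [← neg_sub]; exact neg_mem (s := O.nonunits) htr
    · rw [← neg_sub]; exact neg_mem (s := O.nonunits) hdr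

end Fermat.Agent.DeligneSerre
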