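import Fermat.Agent.DeligneSerre.Cheb.Qbar
import Fermat.Agent.Density.Reps
import Fermat.Prelude.Def_GaloisRep_Residual

/-!
# Finite level, means over Frobenius elements, and `2 × 2` matrices of finite order

The mean of a symmetric class function of a finite Galois group is bounded through a majorant on
Frobenius elements, by the Chebotarev lower bound.
-/

set_option autoImplicit false

noncomputable section

namespace Fermat.Agent.DeligneSerre

open Filter Topology Matrix
open scoped Classical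

local notation "ℚbar" => AlgebraicClosure ℚ
local notation "Γ" => AlgebraicClosure ℚ ≃ₐ[ℚ] AlgebraicClosure ℚ

/-- A homomorphism of finite level is one of a finite Galois group. -/
theorem exists_factor {M : Type} [MulOneClass M] (σ : Γ →* M)
    (h : GaloisFactorsThroughFiniteLevel σ) :
    ∃ (N : IntermediateField ℚ ℚbar) (_ : FiniteDimensional ℚ N) (_ : Normal ℚ N)
      (σN : (N ≃ₐ[ℚ] N) →* M), ∀ g : Γ, σN (AlgEquiv.restrictNormalHom N g) = σ g := by
  obtain ⟨L, hL, hker⟩ := h
  set N := IntermediateField.normalClosure ℚ L ℚbar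
  have : Normal ℚ N := normalClosure.normal ℚ L ℚbar
  have hsurj : Function.Surjective (AlgEquiv.restrictNormalHom (F := ℚ) (K₁ := ℚbar) N) :=
    AlgEquiv.restrictNormalHom_surjective ℚbar
  have heq : ∀ g g' : Γ, AlgEquiv.restrictNormalHom N g = AlgEquiv.restrictNormalHom N g' →
      σ g = σ g' := fun g g' hgg => Density.apply_eq_of_eqOn σ L hker fun x hx => by
    have hxN : x ∈ N := L.le_normalClosure hx
    exact (AlgEquiv.restrictNormal_commutes g N ⟨x, hxN⟩).symm.trans
      ((congrArg (fun e : N ≃ₐ[ℚ] N => ((e ⟨x, hxN⟩ : N) : ℚbar)) hgg).trans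
        (AlgEquiv.restrictNormal_commutes g' N ⟨x, hxN⟩))
  choose s hs using hsurj
  refine ⟨N, inferInstance, inferInstance,
    { toFun := fun x => σ (s x)
      map_one' := (heq _ 1 (by rw [hs, map_one])).trans (map_one σ)
      map_mul' := fun x y => (heq _ (s x * s y) (by rw [hs, map_mul, hs, hs])).trans
        (map_mul σ _ _) },
    fun g => heq _ _ (hs _)⟩

/-- Comparing coefficients of `log (1/(s-1))`. -/
theorem le_of_eventually_log {x y C : ℝ}
    (h : ∀ᶠ s in 𝓝[>] (1 : ℝ), x * (-Real.log (s - 1)) ≤ y * (-Real.log (s - 1)) + C) : x ≤ y := by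
  by_contra hlt
  push Not at hlt
  have hL : ∀ᶠ s in 𝓝[>] (1 : ℝ), C / (x - y) < -Real.log (s - 1) := by
    filter_upwards [Density.tendsto_log_sub_one.eventually_lt_atBot (-(C / (x - y)))] with s hs
    linarith
  obtain ⟨s, hs, hs'⟩ := (h.and hL).exists
  rw [div_lt_iff₀ (by linarith)] at hs'
  linarith [show (x - y) * -Real.log (s - 1) =
    x * -Real.log (s - 1) - y * -Real.log (s - 1) by ring,
    mul_comm (x - y) (-Real.log (s - 1))]

/-- **The mean of a symmetric class function** is bounded by the growth of a majorant on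
Frobenius elements. -/
theorem mean_le (N : IntermediateField ℚ ℚbar) [FiniteDimensional ℚ N] [Normal ℚ N]
    (f : (N ≃ₐ[ℚ] N) → ℝ) (hf0 : ∀ x, 0 ≤ f x) (hconj : ∀ x y, f (y * x * y⁻¹) = f x)
    (hinv : ∀ x, f x⁻¹ = f x) {ε : ℝ} (hε : 0 < ε) (T : Finset ℕ) (g : Nat.Primes → ℝ)
    (hg0 : ∀ p, 0 ≤ g p)
    (hfg : ∀ p : Nat.Primes, (p : ℕ) ∉ T → ∀ A : ValuationSubring ℚbar, A.LiesOverPrime p →
      ∀ τ : Γ, A.IsFrobeniusAt τ p → f (AlgEquiv.restrictNormalHom N τ) ≤ g p)
    {y : ℝ} (hg : ∃ C : ℝ, ∀ᶠ s in 𝓝[>] (1 : ℝ),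
      (Summable fun p : Nat.Primes => g p * ((p : ℕ) : ℝ) ^ (-s)) ∧
      (∑' p : Nat.Primes, g p * ((p : ℕ) : ℝ) ^ (-s)) ≤ y * (-Real.log (s - 1)) + C) :
    (1 - ε) * ((∑ x, f x) / Nat.card (N ≃ₐ[ℚ] N)) ≤ y := by
  obtain ⟨C, hC⟩ := Cheb.exists_frobenius_sum_ge N f hf0 hconj hinv hε T
  obtain ⟨C', hC'⟩ := hg
  refine le_of_eventually_log (C := C + C') ?_
  filter_upwards [hC, hC'] with s h1 h2
  linarith [h1 g hg0 h2.1 hfg, h2.2]

section Matrix2

variable {K : Type*} [Field K]

theorem trace_det_conj {G : Type*} [Group G] (σ : G →* Matrix (Fin 2) (Fin 2) K) (x y : G) :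
    (σ (y * x * y⁻¹)).trace = (σ x).trace ∧ (σ (y * x * y⁻¹)).det = (σ x).det := by
  constructor
  · rw [map_mul, map_mul, Matrix.trace_mul_cycle, ← map_mul, inv_mul_cancel, map_one, one_mul]
  · rw [map_mul, map_mul, Matrix.det_mul, Matrix.det_mul, mul_right_comm,
      ← Matrix.det_mul, ← map_mul,
      mul_inv_cancel, map_one, Matrix.det_one, one_mul]

theorem trace_det_inv {G : Type*} [Group G] (σ : G →* Matrix (Fin 2) (Fin 2) K) (x : G) :
    (σ x⁻¹).trace = (σ x).trace / (σ x).det ∧ (σ x⁻¹).det = ((σ x).det)⁻¹ := by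
  have h : (σ x)⁻¹ = σ x⁻¹ :=
    Matrix.inv_eq_right_inv (by rw [← map_mul, mul_inv_cancel, map_one])
  rw [← h, Matrix.det_nonsing_inv, Ring.inverse_eq_inv', Matrix.inv_def, Ring.inverse_eq_inv',
    Matrix.trace_smul, Matrix.adjugate_fin_two, Matrix.trace_fin_two (σ x), smul_eq_mul,
    div_eq_inv_mul]
  refine ⟨?_, rfl⟩
  congr 1
  simp [Matrix.trace_fin_two, add_comm]

/-- The eigenvalues of a matrix of finite order are roots of unity. -/
theorem exists_roots_of_pow_eq_one [IsAlgClosed K] (M : Matrix (Fin 2) (Fin 2) K) {n : ℕ}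
    (h : M ^ n = 1) : ∃ α β : K, α ^ n = 1 ∧ β ^ n = 1 ∧ M.trace = α + β ∧ M.det = α * β := by
  obtain ⟨α, hα⟩ := IsAlgClosed.exists_root M.charpoly (by
    rw [Matrix.charpoly_degree_eq_dim, Fintype.card_fin]; decide)
  rw [Polynomial.IsRoot.def, Matrix.charpoly_fin_two] at hα
  simp only [Polynomial.eval_add, Polynomial.eval_sub, Polynomial.eval_pow, Polynomial.eval_X,
    Polynomial.eval_mul, Polynomial.eval_C] at hα
  have hpow : ∀ z : K, z ^ 2 - M.trace * z + M.det = 0 → z ^ n = 1 := fun z hz => by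
    have hdet : (M - z • 1).det = 0 := by
      rw [← hz]
      simp [Matrix.det_fin_two, Matrix.trace_fin_two]
      ring
    obtain ⟨v, hv, hv'⟩ := Matrix.exists_mulVec_eq_zero_iff.2 hdet
    rw [Matrix.sub_mulVec, Matrix.smul_mulVec, Matrix.one_mulVec, sub_eq_zero] at hv'
    have hk : ∀ k : ℕ, (M ^ k) *ᵥ v = z ^ k • v := fun k => by
      induction k with
      | zero => simp
      | succ k ih =>
        rw [pow_succ, ← Matrix.mulVec_mulVec, hv', Matrix.mulVec_smul, ih, smul_smul,
          pow_succ, mul_comm]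
    have := hk n
    rw [h, Matrix.one_mulVec] at this
    exact (smul_left_injective K hv ((one_smul K v).trans this)).symm
  exact ⟨α, M.trace - α, hpow α hα, hpow _ (by linear_combination hα), by ring,
    by linear_combination hα⟩

end Matrix2

end Fermat.Agent.DeligneSerre
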