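import Fermat.Agent.DeligneSerre.Algebra.Count
import Fermat.Agent.Density.BrauerNesbitt
import Fermat.Prelude.Def_Deformations_MatrixRepresentation

/-!
# The Artin representation of a system of Hecke eigenvalues of weight one

The algebraic part of the theorem of Deligne and Serre: from the mod `l` representations and
Rankin's bound to the complex representation (`exists_artinRep`).
-/

set_option autoImplicit false

noncomputable section

open Filter Topology Matrix IsLocalRing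

namespace Fermat.Agent.DeligneSerre

local notation "ℚbar" => AlgebraicClosure ℚ
local notation "Γ" => AlgebraicClosure ℚ ≃ₐ[ℚ] AlgebraicClosure ℚ

/-- Two pairs of roots of unity with congruent sums and products have equal sums and products. -/
theorem pair_unique (O : ValuationSubring ℂ) {n : ℕ} (hn : (n : ResidueField O) ≠ 0) {a b a' b' : O}
    (ha : a ^ n = 1) (hb : b ^ n = 1) (ha' : a' ^ n = 1) (hb' : b' ^ n = 1)
    (hs : residue O (a + b) = residue O (a' + b'))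
    (hp : residue O (a * b) = residue O (a' * b')) : a + b = a' + b' ∧ a * b = a' * b' := by
  simp only [map_add, map_mul] at hs hp
  have h : (residue O a' - residue O a) * (residue O a' - residue O b) = 0 := by
    linear_combination hp - residue O a' * hs
  rcases mul_eq_zero.1 h with h | h
  · have h1 : residue O a = residue O a' := (sub_eq_zero.1 h).symm
    have e1 := root_eq_of_residue_eq O hn ha ha' h1
    have e2 := root_eq_of_residue_eq O hn hb hb' (by linear_combination hs - h1)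
    rw [e1, e2]
    exact ⟨rfl, rfl⟩
  · have h1 : residue O b = residue O a' := (sub_eq_zero.1 h).symm
    have e1 := root_eq_of_residue_eq O hn hb ha' h1
    have e2 := root_eq_of_residue_eq O hn ha hb' (by linear_combination hs - h1)
    rw [e1, e2]
    exact ⟨add_comm _ _, mul_comm _ _⟩

/-- A representation whose traces obey Rankin's bound has no invariant line. -/
theorem not_reducible {N : ℕ} [NeZero N] {R : Subalgebra ℤ ℂ} {a : ℕ → R} (hB : RankinBound N a)
    (ρ : Γ →* Matrix (Fin 2) (Fin 2) ℂ) (hlev : GaloisFactorsThroughFiniteLevel ρ) (T : Finset ℕ)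
    (htr : ∀ p : ℕ, p.Prime → ¬ p ∣ N → p ∉ T → ∀ A : ValuationSubring ℚbar, A.LiesOverPrime p →
      ∀ τ : Γ, A.IsFrobeniusAt τ p → (ρ τ).trace = (a p : ℂ))
    {v : Fin 2 → ℂ} (hv : v ≠ 0) : ∃ g, ∀ c : ℂ, ρ g *ᵥ v ≠ c • v := by
  classical
  by_contra hall
  push Not at hall
  obtain ⟨E, _, _, ρE, hρE⟩ := exists_factor ρ hlev
  have : NumberField E := ⟨⟩
  have hline : ∀ x, ∃ c : ℂ, ρE x *ᵥ v = c • v := fun x => by
    obtain ⟨g, rfl⟩ := AlgEquiv.restrictNormalHom_surjective (E := ℚbar) (F := ℚ) (K₁ := E) x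
    rw [hρE]
    exact hall g
  obtain ⟨Q, hQ, hQv0, hQv1⟩ :
    ∃ Q : Matrix (Fin 2) (Fin 2) ℂ, Q.det ≠ 0 ∧ Q 0 0 = v 0 ∧ Q 1 0 = v 1 := by
    by_cases h0 : v 0 = 0
    · refine ⟨!![v 0, 1; v 1, 0], ?_, rfl, rfl⟩
      simp [Matrix.det_fin_two]
      intro h1
      exact hv (funext fun i => by fin_cases i <;> simp [h0, h1])
    · exact ⟨!![v 0, 0; v 1, 1], by simpa [Matrix.det_fin_two] using h0, rfl, rfl⟩
  set κ := conjRep ρE Q hQ
  have hκ10 : ∀ x, κ x 1 0 = 0 := fun x => by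
    obtain ⟨c, hc⟩ := hline x
    have c0 := congrFun hc 0
    have c1 := congrFun hc 1
    simp [Matrix.mulVec, dotProduct, Fin.sum_univ_two] at c0 c1
    have hadj : (Q.adjugate * ρE x * Q) 1 0 = 0 := by
      simp [Matrix.adjugate_fin_two, Matrix.mul_apply, Matrix.vecMul, dotProduct, Fin.sum_univ_two,
        hQv0,
        hQv1]
      linear_combination v 0 * c1 - v 1 * c0
    simp only [κ, conjRep_apply]
    rw [Matrix.inv_def, Matrix.smul_mul, Matrix.smul_mul, Matrix.smul_apply, hadj, smul_zero]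
  have hmul : ∀ (i : Fin 2) x y, κ (x * y) i i = κ x i i * κ y i i := fun i x y => by
    fin_cases i <;> simp [Matrix.mul_apply, Fin.sum_univ_two, hκ10]
  let χ : Fin 2 → (E ≃ₐ[ℚ] E) →* ℂ := fun i =>
    { toFun := fun x => κ x i i, map_one' := by simp, map_mul' := hmul i }
  have hconj : ∀ i x, starRingEnd ℂ (χ i x) = χ i x⁻¹ := fun i x => by
    have hnorm : ‖χ i x‖ = 1 := Complex.norm_eq_one_of_pow_eq_one
      (n := Fintype.card (E ≃ₐ[ℚ] E))
      (by rw [← map_pow, pow_card_eq_one, map_one]) Fintype.card_ne_zero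
    rw [← Complex.inv_eq_conj hnorm]
    refine inv_eq_of_mul_eq_one_right ?_
    rw [← map_mul, mul_inv_cancel, map_one]
  have htrace : ∀ x, (ρE x).trace = χ 0 x + χ 1 x := fun x => by
    rw [← trace_conjRep ρE Q hQ x, Matrix.trace_fin_two]
    rfl
  set f : (E ≃ₐ[ℚ] E) → ℝ := fun x => Complex.normSq (ρE x).trace
  let ψ : (E ≃ₐ[ℚ] E) →* ℂ :=
    { toFun := fun x => χ 0 x * χ 1 x⁻¹
      map_one' := by simp
      map_mul' := fun x y => by rw [_root_.mul_inv_rev, map_mul, map_mul]; ring }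
  have hfψ : ∀ x, f x = 2 + 2 * (ψ x).re := fun x => by
    have h1 : ∀ i, Complex.normSq (χ i x) = 1 := fun i => by
      rw [Complex.normSq_eq_norm_sq, Complex.norm_eq_one_of_pow_eq_one
        (n := Fintype.card (E ≃ₐ[ℚ] E))
        (by rw [← map_pow, pow_card_eq_one, map_one]) Fintype.card_ne_zero,
        one_pow]
    simp only [f]
    rw [htrace, Complex.normSq_add, h1, h1, hconj]
    change 1 + 1 + 2 * (χ 0 x * χ 1 x⁻¹).re = 2 + 2 * (χ 0 x * χ 1 x⁻¹).re
    ring
  have hψsum : 0 ≤ (∑ x, ψ x).re := by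
    by_cases h : ∃ y, ψ y ≠ 1
    · obtain ⟨y, hy⟩ := h
      have : ψ y * ∑ x, ψ x = ∑ x, ψ x := by
        rw [Finset.mul_sum]
        exact Fintype.sum_equiv (Equiv.mulLeft y) _ _ fun x => (map_mul ψ y x).symm
      have h0 : ∑ x, ψ x = 0 := by
        by_contra hne
        exact hy ((mul_eq_right₀ hne).1 this)
      rw [h0, Complex.zero_re]
    · push Not at h
      simp [h]
  have hid : ∀ σ : Γ, f (AlgEquiv.restrictNormalHom E σ) = Complex.normSq (ρ σ).trace := fun σ => by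
    simp only [f, hρE]
  obtain ⟨C, hC⟩ := hB R.val.toRingHom
  set g : Nat.Primes → ℝ := fun p => if (p : ℕ) ∣ N then 0 else Complex.normSq (a p : ℂ)
  have hmean := mean_le E f (fun x => Complex.normSq_nonneg _)
    (fun x y => by simp only [f]; rw [(trace_det_conj ρE x y).1])
    (fun x => by
      simp only [f]
      rw [htrace, htrace, ← hconj, ← hconj, ← map_add, Complex.normSq_conj])
    (show (0 : ℝ) < 1 / 4 by norm_num) (T ∪ N.divisors) g
    (fun p => by simp only [g]; split_ifs <;> first | exact le_rfl | exact Complex.normSq_nonneg _)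
    (fun p hp A hA τ hτ => by
      rw [Finset.mem_union, not_or, Nat.mem_divisors] at hp
      have hpN : ¬ (p : ℕ) ∣ N := fun h => hp.2 ⟨h, NeZero.ne N⟩
      rw [hid, htr p p.2 hpN hp.1 A hA τ hτ]
      simp only [g, if_neg hpN, le_refl])
    (y := 1) ⟨C, by
      filter_upwards [hC] with s hs
      rw [one_mul]
      simpa [g, ite_mul] using hs⟩
  have hsum : 2 * (Nat.card (E ≃ₐ[ℚ] E) : ℝ) ≤ ∑ x, f x := by
    simp only [hfψ, Finset.sum_add_distrib, Finset.sum_const, Finset.card_univ, nsmul_eq_mul,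
      ← Finset.mul_sum, Nat.card_eq_fintype_card]
    rw [← Complex.re_sum]
    linarith
  have hpos : (0 : ℝ) < Nat.card (E ≃ₐ[ℚ] E) := by exact_mod_cast Nat.card_pos
  have h2 : 2 ≤ (∑ x, f x) / Nat.card (E ≃ₐ[ℚ] E) := (le_div_iff₀ hpos).2 hsum
  linarith

/-- The representation on column vectors. -/
def toEnd {G : Type*} [Group G] (ρ : G →* Matrix (Fin 2) (Fin 2) ℂ) :
    G →* Module.End ℂ (Fin 2 → ℂ) :=
  (Matrix.toLinAlgEquiv' (R := ℂ) (n := Fin 2)).toRingEquiv.toMonoidHom.comp ρ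

theorem toEnd_apply {G : Type*} [Group G] (ρ : G →* Matrix (Fin 2) (Fin 2) ℂ) (g : G)
    (v : Fin 2 → ℂ) : toEnd ρ g v = ρ g *ᵥ v :=
  Matrix.toLinAlgEquiv'_apply _ _

theorem invariant_trivial {G : Type*} [Group G] (ρ : G →* Matrix (Fin 2) (Fin 2) ℂ)
    (h : ∀ v : Fin 2 → ℂ, v ≠ 0 → ∃ g, ∀ c : ℂ, ρ g *ᵥ v ≠ c • v)
    (U : Submodule ℂ (Fin 2 → ℂ)) (hU : ∀ g, ∀ x ∈ U, ρ g *ᵥ x ∈ U) : U = ⊥ ∨ U = ⊤ := by
  by_contra hne
  push Not at hne
  obtain ⟨v, hvU, hv0⟩ := Submodule.exists_mem_ne_zero_of_ne_bot hne.1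
  obtain ⟨g, hg⟩ := h v hv0
  apply hne.2
  have hli : LinearIndependent ℂ ![v, ρ g *ᵥ v] := by
    rw [LinearIndependent.pair_iff' hv0]
    exact fun c => (hg c).symm
  rw [eq_top_iff, ← hli.span_eq_top_of_card_eq_finrank (by simp), Submodule.span_le]
  rintro z ⟨i, rfl⟩
  fin_cases i
  · exact hvU
  · exact hU g v hvU

/-- Cayley-Hamilton for traces of powers. -/
theorem trace_pow_add_two (M : Matrix (Fin 2) (Fin 2) ℂ) (j : ℕ) :
    (M ^ (j + 2)).trace = M.trace * (M ^ (j + 1)).trace - M.det * (M ^ j).trace := by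
  have h : M * M = M.trace • M - M.det • 1 := by
    ext i k
    fin_cases i <;> fin_cases k <;>
      simp [Matrix.mul_apply, Fin.sum_univ_two, Matrix.trace_fin_two, Matrix.det_fin_two] <;> ring
  rw [pow_add M j 2, sq, h, Matrix.mul_sub, Matrix.mul_smul, Matrix.mul_smul, ← pow_succ, mul_one,
    Matrix.trace_sub, Matrix.trace_smul, Matrix.trace_smul, smul_eq_mul, smul_eq_mul]

/-- **Deligne-Serre, algebraic part.** -/
theorem exists_artinRep (N : ℕ) [NeZero N] (R : Subalgebra ℤ ℂ) [Module.Finite ℤ R] (a e : ℕ → R)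
    (he : ∃ k > 0, ∀ p : ℕ, p.Prime → ¬ p ∣ N → e p ^ k = 1)
    (hB : ∀ τ : R →+* ℂ, ∃ C : ℝ, ∀ᶠ s in 𝓝[>] (1 : ℝ),
      (Summable fun p : Nat.Primes =>
        if (p : ℕ) ∣ N then 0 else Complex.normSq (τ (a p)) * ((p : ℕ) : ℝ) ^ (-s)) ∧
      (∑' p : Nat.Primes, if (p : ℕ) ∣ N then 0 else
        Complex.normSq (τ (a p)) * ((p : ℕ) : ℝ) ^ (-s)) ≤
        -Real.log (s - 1) + C)
    (l₀ : ℕ) (hmod : ∀ (l : ℕ) [Fact l.Prime], l₀ < l → ∀ π : R →+* ZMod l,
      ModRep l N (fun p => π (a p)) (fun p => π (e p))) :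
    ∃ ρ : Γ →* GL (Fin 2) ℂ, GaloisFactorsThroughFiniteLevel ρ ∧
      (Deformation.matrixRepresentation ρ).IsIrreducible ∧
      ∀ p : ℕ, p.Prime → ¬ p ∣ N →
        ∀ A : ValuationSubring ℚbar, A.LiesOverPrime p →
          (∀ σ ∈ A.inertiaSubgroupIn ℚ, ρ σ = 1) ∧
          ∀ σ : Γ, A.IsFrobeniusAt σ p →
            ((ρ σ : GL (Fin 2) ℂ) : Matrix (Fin 2) (Fin 2) ℂ).trace = (a p : ℂ) ∧
            ((ρ σ : GL (Fin 2) ℂ) : Matrix (Fin 2) (Fin 2) ℂ).det = (e p : ℂ) := by
  classical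
  obtain ⟨n, l₁, hn0, hcong⟩ := exists_order_bound a e he hB
  have hdata : ∀ m : ℕ, ∃ l > m, l.Prime ∧ ∃ (O : ValuationSubring ℂ) (_ : CharP (ResidueField O) l)
      (ρ : Γ →* Matrix (Fin 2) (Fin 2) ℂ), IsCongrAt N l n a e O ρ := fun m => by
    obtain ⟨l, hl, hlp, ⟨π⟩⟩ := exists_residueHom R (max m (max l₀ l₁))
    have : Fact l.Prime := ⟨hlp⟩
    exact ⟨l, by omega, hlp, hcong l (by omega) π (hmod l (by omega) π)⟩
  have hint : ∀ r : R, IsIntegral ℤ (r : ℂ) := fun r =>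
    (Algebra.IsIntegral.isIntegral (R := ℤ) r).map R.val
  have hroot : ∀ α : ℂ, α ^ n = 1 → IsIntegral ℤ α := fun α h =>
    IsIntegral.of_pow (n := n) hn0 (by rw [h]; exact isIntegral_one)
  set roots : Finset ℂ := (Polynomial.nthRoots n (1 : ℂ)).toFinset
  have hroots : ∀ α, α ∈ roots ↔ α ^ n = 1 := fun α => by
    rw [Multiset.mem_toFinset, Polynomial.mem_nthRoots hn0]
  -- the values are sums and products of roots of unity
  have hexact : ∀ p : ℕ, p.Prime → ¬ p ∣ N →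
      ∃ α β : ℂ, α ^ n = 1 ∧ β ^ n = 1 ∧ (a p : ℂ) = α + β ∧ (e p : ℂ) = α * β := by
    intro p hp hpN
    let P : ℂ × ℂ → ℕ → Prop := fun z m => ∃ l > m, l.Prime ∧ ∃ O : ValuationSubring ℂ,
      CharP (ResidueField O) l ∧ (a p : ℂ) - (z.1 + z.2) ∈ O.nonunits ∧
        (e p : ℂ) - z.1 * z.2 ∈ O.nonunits
    have hex : ∀ m, ∃ z ∈ roots ×ˢ roots, P z m := fun m => by
      obtain ⟨l, hl, hlp, O, hO, ρ, hρ⟩ := hdata (max m p)
      obtain ⟨A, hA⟩ := Gal.exists_liesOverPrime (L := ℚbar) hp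
      obtain ⟨τ, hτ⟩ := Gal.exists_isFrobeniusAt hp hA
      have hpl : ¬ p ∣ N * l := fun h => by
        rcases hp.dvd_mul.1 h with h | h
        · exact hpN h
        · have := (Nat.prime_dvd_prime_iff_eq hp hlp).1 h
          omega
      obtain ⟨α, β, hα, hβ, htr, hdt⟩ := exists_roots_of_pow_eq_one _ (hρ.pow τ)
      obtain ⟨h1, h2⟩ := hρ.frob p hp hpl A hA τ hτ
      rw [htr] at h1
      rw [hdt] at h2
      exact ⟨(α, β), Finset.mem_product.2 ⟨(hroots _).2 hα, (hroots _).2 hβ⟩,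
        l, by omega, hlp, O, hO,
        h1, h2⟩
    obtain ⟨z, hz, hzm⟩ : ∃ z ∈ roots ×ˢ roots, ∀ m, P z m := by
      by_contra hno
      push Not at hno
      choose m hm using hno
      obtain ⟨z, hz, hPz⟩ := hex ((roots ×ˢ roots).attach.sup fun z => m z.1 z.2)
      refine hm z hz ?_
      obtain ⟨l, hl, rest⟩ := hPz
      exact ⟨l, lt_of_le_of_lt (Finset.le_sup (f := fun z : {z // z ∈ roots ×ˢ roots} => m z.1 z.2)
        (Finset.mem_attach _ ⟨z, hz⟩)) hl, rest⟩
    obtain ⟨hα, hβ⟩ := Finset.mem_product.1 hz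
    rw [hroots] at hα hβ
    refine ⟨z.1, z.2, hα, hβ, ?_, ?_⟩
    · refine sub_eq_zero.1 (eq_zero_of_infinitely_many
        ((hint _).sub ((hroot _ hα).add (hroot _ hβ)))
        fun m => ?_)
      obtain ⟨l, hl, hlp, O, hO, h1, -⟩ := hzm m
      exact ⟨l, hl, hlp, O, hO, h1⟩
    · refine sub_eq_zero.1 (eq_zero_of_infinitely_many
        ((hint _).sub ((hroot _ hα).mul (hroot _ hβ)))
        fun m => ?_)
      obtain ⟨l, hl, hlp, O, hO, -, h2⟩ := hzm m
      exact ⟨l, hl, hlp, O, hO, h2⟩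
  -- the representations are exact
  have hrep : ∀ m : ℕ, ∃ l > m, l.Prime ∧ ∃ ρ : Γ →* Matrix (Fin 2) (Fin 2) ℂ,
      GaloisFactorsThroughFiniteLevel ρ ∧
      (∀ v : Fin 2 → ℂ, v ≠ 0 → ∃ g, ∀ c : ℂ, ρ g *ᵥ v ≠ c • v) ∧
      ∀ p : ℕ, p.Prime → ¬ p ∣ N → p ≠ l → ∀ A : ValuationSubring ℚbar, A.LiesOverPrime p →
        (∀ τ ∈ A.inertiaSubgroupIn ℚ, ρ τ = 1) ∧
        ∀ τ : Γ, A.IsFrobeniusAt τ p → (ρ τ).trace = (a p : ℂ) ∧ (ρ τ).det = (e p : ℂ) := by
    intro m
    obtain ⟨l, hl, hlp, O, hO, ρ, hρ⟩ := hdata (max m n)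
    have hnk : (n : ResidueField O) ≠ 0 := fun h => by
      rw [CharP.cast_eq_zero_iff _ l] at h
      have := Nat.le_of_dvd hn0 h
      omega
    have hdvd : ∀ p : ℕ, p.Prime → ¬ p ∣ N → p ≠ l → ¬ p ∣ N * l := fun p hp hpN hpl h => by
      rcases hp.dvd_mul.1 h with h | h
      · exact hpN h
      · exact hpl ((Nat.prime_dvd_prime_iff_eq hp hlp).1 h)
    have hfrob : ∀ p : ℕ, p.Prime → ¬ p ∣ N → p ≠ l →
      ∀ A : ValuationSubring ℚbar, A.LiesOverPrime p →
        ∀ τ : Γ, A.IsFrobeniusAt τ p → (ρ τ).trace = (a p : ℂ) ∧ (ρ τ).det = (e p : ℂ) := by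
      intro p hp hpN hpl A hA τ hτ
      obtain ⟨h1, h2⟩ := hρ.frob p hp (hdvd p hp hpN hpl) A hA τ hτ
      obtain ⟨α, β, hα, hβ, hap, hep⟩ := hexact p hp hpN
      obtain ⟨α', β', hα', hβ', htr, hdt⟩ := exists_roots_of_pow_eq_one _ (hρ.pow τ)
      rw [htr, hap] at h1
      rw [hdt, hep] at h2
      let A' : O := ⟨α, mem_of_isIntegral_int O (hroot α hα)⟩
      let B' : O := ⟨β, mem_of_isIntegral_int O (hroot β hβ)⟩
      let C' : O := ⟨α', mem_of_isIntegral_int O (hroot α' hα')⟩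
      let D' : O := ⟨β', mem_of_isIntegral_int O (hroot β' hβ')⟩
      have hres : ∀ x y : O, (x : ℂ) - y ∈ O.nonunits → residue O x = residue O y := fun x y h => by
        rw [← sub_eq_zero, ← map_sub, IsLocalRing.residue_eq_zero_iff, ← O.coe_mem_nonunits_iff]
        exact h
      obtain ⟨e1, e2⟩ := pair_unique O hnk (a := A') (b := B') (a' := C') (b' := D')
        (Subtype.ext hα) (Subtype.ext hβ) (Subtype.ext hα') (Subtype.ext hβ')
        (hres _ _ h1) (hres _ _ h2)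
      refine ⟨?_, ?_⟩
      · rw [htr, hap]; exact (congrArg (fun x : O => (x : ℂ)) e1).symm
      · rw [hdt, hep]; exact (congrArg (fun x : O => (x : ℂ)) e2).symm
    refine ⟨l, by omega, hlp, ρ, hρ.level, fun v hv => ?_, fun p hp hpN hpl A hA =>
      ⟨hρ.inertia p hp (hdvd p hp hpN hpl) A hA, hfrob p hp hpN hpl A hA⟩⟩
    exact not_reducible hB ρ hρ.level {l}
      (fun p hp hpN hpl A hA τ hτ => (hfrob p hp hpN (by simpa using hpl) A hA τ hτ).1) hv
  obtain ⟨l, -, hlp, ρ, hlev, hirr, hloc⟩ := hrep 0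
  obtain ⟨l', hl', hlp', ρ', hlev', hirr', hloc'⟩ := hrep l
  -- the two representations are isomorphic
  obtain ⟨L, hL, hk, hk'⟩ := Density.exists_common_level hlev hlev'
  have hsame : ∀ σ : Γ, (ρ σ).trace = (ρ' σ).trace ∧ (ρ σ).det = (ρ' σ).det := by
    intro σ
    refine Density.forall_of_forall_frobenius L
      (fun σ => (ρ σ).trace = (ρ' σ).trace ∧ (ρ σ).det = (ρ' σ).det) ?_ ?_ ?_
      ↑((N * l * l').divisors) (Finset.finite_toSet _) ?_ σ
    · intro x y hxy h
      rwa [Density.apply_eq_of_eqOn ρ L hk hxy, Density.apply_eq_of_eqOn ρ' L hk' hxy]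
    · intro g x h
      rwa [(trace_det_conj ρ x g).1, (trace_det_conj ρ x g).2, (trace_det_conj ρ' x g).1,
        (trace_det_conj ρ' x g).2]
    · intro x j h
      refine ⟨?_, by rw [map_pow, map_pow, Matrix.det_pow, Matrix.det_pow, h.2]⟩
      rw [map_pow, map_pow]
      induction j using Nat.twoStepInduction with
      | zero => simp
      | one => simpa using h.1
      | more j ih1 ih2 => rw [trace_pow_add_two, trace_pow_add_two, h.1, h.2, ih1, ih2]
    · intro p hp hpS A hA τ hτ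
      have hne : N * l * l' ≠ 0 := mul_ne_zero (mul_ne_zero (NeZero.ne N) hlp.ne_zero) hlp'.ne_zero
      have hpd : ¬ p ∣ N * l * l' := fun h => hpS (Nat.mem_divisors.2 ⟨h, hne⟩)
      have hpN : ¬ p ∣ N := fun h => hpd ((h.mul_right l).mul_right l')
      have hpl : p ≠ l := fun h => hpd ((h.dvd.trans (dvd_mul_left l N)).mul_right l')
      have hpl' : p ≠ l' := fun h => hpd (h.dvd.trans (dvd_mul_left l' (N * l)))
      obtain ⟨t1, d1⟩ := (hloc p hp hpN hpl A hA).2 τ hτ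
      obtain ⟨t2, d2⟩ := (hloc' p hp hpN hpl' A hA).2 τ hτ
      exact ⟨t1.trans t2.symm, d1.trans d2.symm⟩
  have hspan : ∀ (η : Γ →* Matrix (Fin 2) (Fin 2) ℂ),
      (∀ v : Fin 2 → ℂ, v ≠ 0 → ∃ g, ∀ c : ℂ, η g *ᵥ v ≠ c • v) →
      Submodule.span ℂ (Set.range (toEnd η)) = ⊤ := fun η hη =>
    Density.span_range_eq_top_of_irreducible (toEnd η) fun U hU =>
      invariant_trivial η hη U fun g x hx => by rw [← toEnd_apply]; exact hU g x hx
  have hend : ∀ (η : Γ →* Matrix (Fin 2) (Fin 2) ℂ) (g : Γ),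
      LinearMap.trace ℂ (Fin 2 → ℂ) (toEnd η g) = (η g).trace := fun η g => by
    rw [show toEnd η g = Matrix.toLin' (η g) from LinearMap.ext fun v => toEnd_apply η g v,
      LinearMap.trace_eq_matrix_trace ℂ (Pi.basisFun ℂ (Fin 2)), LinearMap.toMatrix_eq_toMatrix',
      LinearMap.toMatrix'_toLin']
  obtain ⟨T, hT⟩ := Density.exists_intertwiner_of_trace_eq (toEnd ρ) (toEnd ρ') (hspan ρ hirr)
    (hspan ρ' hirr') fun g => by rw [hend, hend, (hsame g).1]
  have hone : ∀ g, ρ' g = 1 → ρ g = 1 := fun g hg => by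
    refine Matrix.ext fun i j => ?_
    have h1 : ρ g *ᵥ Pi.single j 1 = Pi.single j 1 := by
      refine T.injective ?_
      rw [← toEnd_apply, hT, toEnd_apply, hg, Matrix.one_mulVec]
    simpa [Matrix.one_apply, Pi.single_apply] using congrFun h1 i
  refine ⟨ρ.toHomUnits, ?_, ?_, fun p hp hpN A hA => ?_⟩
  · obtain ⟨L, hL, h1⟩ := hlev
    exact ⟨L, hL, fun σ hσ => Units.ext (by rw [MonoidHom.coe_toHomUnits, h1 σ hσ, Units.val_one])⟩
  · have key : ∀ S : Subrepresentation (Deformation.matrixRepresentation ρ.toHomUnits),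
        S = ⊥ ∨ S = ⊤ := fun S => by
      rcases invariant_trivial ρ hirr S.toSubmodule (fun g x hx => by
        have := S.apply_mem_toSubmodule g hx
        rwa [Deformation.matrixRepresentation_apply, Matrix.mulVecLin_apply,
          MonoidHom.coe_toHomUnits] at this) with h | h
      · exact Or.inl (Subrepresentation.toSubmodule_injective h)
      · exact Or.inr (Subrepresentation.toSubmodule_injective h)
    have : Nontrivial (Subrepresentation (Deformation.matrixRepresentation ρ.toHomUnits)) :=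
      ⟨⊥, ⊤, fun h => bot_ne_top (α := Submodule ℂ (Fin 2 → ℂ))
        (congrArg Subrepresentation.toSubmodule h)⟩
    exact ⟨key⟩
  · by_cases hpl : p = l
    · have hpl' : p ≠ l' := by omega
      refine ⟨fun σ hσ => Units.ext ?_, fun σ hσ => ?_⟩
      · rw [MonoidHom.coe_toHomUnits, Units.val_one]
        exact hone σ ((hloc' p hp hpN hpl' A hA).1 σ hσ)
      · rw [MonoidHom.coe_toHomUnits, (hsame σ).1, (hsame σ).2]
        exact (hloc' p hp hpN hpl' A hA).2 σ hσ
    · refine ⟨fun σ hσ => Units.ext ?_, fun σ hσ => ?_⟩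
      · rw [MonoidHom.coe_toHomUnits, Units.val_one]
        exact (hloc p hp hpN hpl A hA).1 σ hσ
      · rw [MonoidHom.coe_toHomUnits]
        exact (hloc p hp hpN hpl A hA).2 σ hσ

end Fermat.Agent.DeligneSerre
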