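import Fermat.Agent.Density.BrauerNesbitt

/-!
# Representations annihilated by quadratic relations

If a finite dimensional representation `ρ` satisfies `ρ g + d g • ρ g⁻¹ = t g • 1` then there is a
semisimple two-dimensional representation with trace `t` and determinant `d`.
-/

set_option autoImplicit false

noncomputable section

open Matrix

namespace Fermat.Agent.DeligneSerre

variable {Γ : Type*} [Group Γ] {F : Type*} [Field F]

/-- A two-dimensional matrix representation which is diagonal or spans all matrices. -/
def IsSS (σ : Γ →* Matrix (Fin 2) (Fin 2) F) : Prop :=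
  (∀ g, σ g 0 1 = 0 ∧ σ g 1 0 = 0) ∨ Submodule.span F (Set.range σ) = ⊤

theorem no_big_dim {U : Type*} [AddCommGroup U] [Module F U] [FiniteDimensional F U]
    (h : ∀ x y : Module.End F U, ∃ c₁ c₂ c : F, x * y + y * x - c₁ • y - c₂ • x = c • 1) :
    Module.finrank F U ≤ 2 := by
  by_contra hlt
  set b := Module.finBasis F U
  let i0 : Fin (Module.finrank F U) := ⟨0, by omega⟩
  let i1 : Fin (Module.finrank F U) := ⟨1, by omega⟩
  let i2 : Fin (Module.finrank F U) := ⟨2, by omega⟩
  have h10 : i1 ≠ i0 := by simp [i0, i1, Fin.ext_iff]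
  have h21 : i2 ≠ i1 := by simp [i2, i1, Fin.ext_iff]
  have h20 : i2 ≠ i0 := by simp [i2, i0, Fin.ext_iff]
  let x : Module.End F U := b.constr F fun i => if i = i1 then b i0 else 0
  let y : Module.End F U := b.constr F fun i => if i = i0 then b i1 else 0
  obtain ⟨c₁, c₂, c, hc⟩ := h x y
  have hx : ∀ i, x (b i) = if i = i1 then b i0 else 0 := fun i => b.constr_basis F _ i
  have hy : ∀ i, y (b i) = if i = i0 then b i1 else 0 := fun i => b.constr_basis F _ i
  have e2 := LinearMap.congr_fun hc (b i2)
  simp only [LinearMap.sub_apply, LinearMap.add_apply, Module.End.mul_apply, LinearMap.smul_apply,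
    Module.End.one_apply, hx, hy, if_neg h21, if_neg h20, map_zero, smul_zero, add_zero,
    sub_zero] at e2
  have hc0 : c = 0 := (smul_eq_zero.1 e2.symm).resolve_right (b.ne_zero i2)
  have e0 := LinearMap.congr_fun hc (b i0)
  simp only [LinearMap.sub_apply, LinearMap.add_apply, Module.End.mul_apply, LinearMap.smul_apply,
    hy, if_neg h10.symm, ↓reduceIte, hx, map_zero, smul_zero, add_zero,
    sub_zero, hc0, zero_smul] at e0
  have := congrArg (fun u => b.repr u i0) e0
  simp [h10] at this

variable [IsAlgClosed F]

/-- **A semisimple two-dimensional representation from quadratic relations.** -/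
theorem exists_semisimple_two {W : Type*} [AddCommGroup W] [Module F W] [FiniteDimensional F W]
    [Nontrivial W] (ρ : Γ →* Module.End F W) (d : Γ →* F) (t : Γ → F)
    (hrel : ∀ g, ρ g + d g • ρ g⁻¹ = t g • 1) :
    ∃ σ : Γ →* Matrix (Fin 2) (Fin 2) F, (∀ g, (σ g).trace = t g ∧ (σ g).det = d g) ∧
      (∀ g, ρ g = 1 → d g = 1 → σ g = 1) ∧ IsSS σ := by
  classical
  obtain ⟨U, ⟨hU0, hUinv⟩, hmin⟩ := wellFounded_lt.has_min
    {U : Submodule F W | U ≠ ⊥ ∧ ∀ g, ∀ x ∈ U, ρ g x ∈ U}
    ⟨⊤, top_ne_bot, fun _ _ _ => Submodule.mem_top⟩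
  have : Nontrivial U := Submodule.nontrivial_iff_ne_bot.2 hU0
  let π : Γ →* Module.End F U :=
    { toFun := fun g => (ρ g).restrict (hUinv g)
      map_one' := by ext x; simp
      map_mul' := fun g h => by ext x; simp }
  have hπ : ∀ g (x : U), (π g x : W) = ρ g x := fun _ _ => rfl
  have hspan : Submodule.span F (Set.range π) = ⊤ := by
    refine Density.span_range_eq_top_of_irreducible π fun U' hU' => ?_
    by_contra hne
    push Not at hne
    refine hmin (U'.map U.subtype) ⟨?_, ?_⟩ (lt_of_le_of_ne (Submodule.map_subtype_le _ _) ?_)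
    · intro h
      refine hne.1 ?_
      rw [eq_bot_iff]
      intro x hx
      have : (x : W) ∈ U'.map U.subtype := Submodule.mem_map_of_mem hx
      rw [h, Submodule.mem_bot] at this
      exact (Submodule.mem_bot F).2 (Subtype.ext this)
    · rintro g _ ⟨x, hx, rfl⟩
      exact ⟨π g x, hU' g x hx, rfl⟩
    · intro h
      refine hne.2 (eq_top_iff.2 fun x _ => ?_)
      have : (x : W) ∈ U'.map U.subtype := by rw [h]; exact x.2
      obtain ⟨y, hy, hyx⟩ := this
      exact Subtype.ext hyx ▸ hy
  have hrel' : ∀ g, π g + d g • π g⁻¹ = t g • 1 := fun g => by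
    ext x
    simpa [hπ] using LinearMap.congr_fun (hrel g) (x : W)
  have hker : ∀ g, ρ g = 1 → π g = 1 := fun g hg => by
    ext x
    simp [hπ, hg]
  have hd0 : ∀ g, d g ≠ 0 := fun g => (IsUnit.map d (Group.isUnit g)).ne_zero
  -- the twisted transpose
  let P : Submodule F (Module.End F U × Module.End F U) :=
    Submodule.span F (Set.range fun g => (π g, d g • π g⁻¹))
  have hfst : ∀ x : Module.End F U, ∃ x', (x, x') ∈ P := fun x => by
    have hx : x ∈ P.map (LinearMap.fst F _ _) := by
      have : P.map (LinearMap.fst F _ _) = ⊤ := by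
        rw [Submodule.map_span, ← Set.range_comp]
        exact hspan
      rw [this]; trivial
    obtain ⟨⟨a, x'⟩, ha, rfl⟩ := hx
    exact ⟨x', ha⟩
  let S1 : Submodule F (Module.End F U) := Submodule.span F {1}
  have hsum : ∀ q ∈ P, q.1 + q.2 ∈ S1 := fun q hq => by
    induction hq using Submodule.span_induction with
    | mem q h =>
      obtain ⟨g, rfl⟩ := h
      exact Submodule.mem_span_singleton.2 ⟨t g, (hrel' g).symm⟩
    | zero => simp
    | add a b _ _ ha hb =>
      rw [show (a + b).1 + (a + b).2 = a.1 + a.2 + (b.1 + b.2) by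
        simp only [Prod.fst_add, Prod.snd_add]; abel]
      exact add_mem ha hb
    | smul c a _ ha =>
      rw [show (c • a).1 + (c • a).2 = c • (a.1 + a.2) by simp [smul_add]]
      exact S1.smul_mem c ha
  have hprod : ∀ p ∈ P, ∀ q ∈ P, p.1 * q.1 + q.2 * p.2 ∈ S1 := fun p hp => by
    induction hp using Submodule.span_induction with
    | mem p h =>
      obtain ⟨g, rfl⟩ := h
      intro q hq
      induction hq using Submodule.span_induction with
      | mem q h' =>
        obtain ⟨k, rfl⟩ := h'
        refine Submodule.mem_span_singleton.2 ⟨t (g * k), ?_⟩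
        rw [← hrel', map_mul, map_mul, _root_.mul_inv_rev, map_mul,
          smul_mul_smul_comm, mul_comm (d g)]
      | zero => simp
      | add a b _ _ ha hb =>
        simp only [Prod.fst_add, Prod.snd_add, mul_add, add_mul] at *
        convert add_mem ha hb using 1
        abel
      | smul c a _ ha =>
        simp only [Prod.smul_fst, Prod.smul_snd, mul_smul_comm, smul_mul_assoc] at *
        rw [smul_comm (d g) c, ← smul_add]
        exact S1.smul_mem c ha
    | zero => simp
    | add a b _ _ ha hb =>
      intro q hq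
      simp only [Prod.fst_add, Prod.snd_add, mul_add, add_mul]
      convert add_mem (ha q hq) (hb q hq) using 1
      abel
    | smul c a _ ha =>
      intro q hq
      simp only [Prod.smul_fst, Prod.smul_snd, mul_smul_comm, smul_mul_assoc]
      rw [← smul_add]
      exact S1.smul_mem c (ha q hq)
  have hkey : ∀ x y : Module.End F U,
      ∃ c₁ c₂ c : F, x * y + y * x - c₁ • y - c₂ • x = c • 1 := fun x y => by
    obtain ⟨x', hx'⟩ := hfst x
    obtain ⟨y', hy'⟩ := hfst y
    obtain ⟨c₁, h₁⟩ := Submodule.mem_span_singleton.1 (hsum _ hx')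
    obtain ⟨c₂, h₂⟩ := Submodule.mem_span_singleton.1 (hsum _ hy')
    obtain ⟨c, hc⟩ := Submodule.mem_span_singleton.1 (hprod _ hx' _ hy')
    simp only at h₁ h₂ hc
    refine ⟨c₁, c₂, c - c₁ * c₂, ?_⟩
    rw [← sub_eq_iff_eq_add'] at h₁ h₂
    rw [← h₁, ← h₂, sub_mul, mul_sub, mul_sub] at hc
    simp only [smul_mul_assoc, mul_smul_comm, one_mul, mul_one, smul_smul] at hc
    linear_combination (norm := module) -(1 : F) • hc
  have hle := no_big_dim hkey
  have hge : 1 ≤ Module.finrank F U := Module.finrank_pos
  rcases (show Module.finrank F U = 1 ∨ Module.finrank F U = 2 by omega) with hdim | hdim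
  · -- a character
    let u := Module.basisUnique Unit hdim
    let χ : Γ →* F :=
        { toFun := fun g => LinearMap.toMatrix u u (π g) () ()
          map_one' := by simp [LinearMap.toMatrix_one]
          map_mul' := fun g h => by
            rw [map_mul, LinearMap.toMatrix_mul, Matrix.mul_apply, Fintype.sum_unique] }
    have hχ : ∀ g, χ g + d g * χ g⁻¹ = t g := fun g => by
      have := congrArg (fun x => LinearMap.toMatrix u u x () ()) (hrel' g)
      simpa [χ, map_add, map_smul, LinearMap.toMatrix_one] using this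
    let σ : Γ →* Matrix (Fin 2) (Fin 2) F :=
      { toFun := fun g => Matrix.diagonal ![χ g, d g * χ g⁻¹]
        map_one' := by
          rw [inv_one, map_one, map_one, mul_one]
          ext i j; fin_cases i <;> fin_cases j <;> simp
        map_mul' := fun g k => by
          rw [Matrix.diagonal_mul_diagonal, _root_.mul_inv_rev, map_mul, map_mul, map_mul]
          congr 1
          ext i; fin_cases i <;> simp; ring }
    refine ⟨σ, fun g => ⟨?_, ?_⟩, fun g hg hdg => ?_, Or.inl fun g => ⟨?_, ?_⟩⟩
    · change (Matrix.diagonal ![χ g, d g * χ g⁻¹]).trace = t g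
      rw [Matrix.trace_fin_two, ← hχ g]
      simp only [Matrix.diagonal_apply_eq, Matrix.cons_val_zero, Matrix.cons_val_one,
        Matrix.cons_val_fin_one]
    · change (Matrix.diagonal _).det = _
      rw [Matrix.det_diagonal, Fin.prod_univ_two]
      simp only [Matrix.cons_val_zero, Matrix.cons_val_one, Matrix.cons_val_fin_one]
      rw [mul_left_comm, ← map_mul, mul_inv_cancel, map_one, mul_one]
    · have h1 : χ g = 1 := by simp [χ, hker g hg, LinearMap.toMatrix_one]
      have h2 : χ g⁻¹ = 1 := by
        have := map_mul χ g g⁻¹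
        rw [mul_inv_cancel, map_one, h1, one_mul] at this
        exact this.symm
      change Matrix.diagonal _ = 1
      rw [h1, h2, hdg, mul_one]
      ext i j; fin_cases i <;> fin_cases j <;> simp
    · simp [σ]
    · simp [σ]
  · let b := Module.finBasisOfFinrankEq F U hdim
    let σ : Γ →* Matrix (Fin 2) (Fin 2) F :=
      { toFun := fun g => LinearMap.toMatrix b b (π g)
        map_one' := by rw [map_one, LinearMap.toMatrix_one]
        map_mul' := fun g k => by rw [map_mul, LinearMap.toMatrix_mul] }
    have hσspan : Submodule.span F (Set.range σ) = ⊤ := by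
      rw [show (Set.range σ) = (LinearMap.toMatrix b b).toLinearMap '' Set.range π from
        Set.range_comp (LinearMap.toMatrix b b) π, ← Submodule.map_span, hspan, Submodule.map_top,
        LinearEquiv.range]
    have hσrel : ∀ g, σ g + d g • σ g⁻¹ = t g • 1 := fun g => by
      have := congrArg (LinearMap.toMatrix b b) (hrel' g)
      simpa [σ, LinearMap.toMatrix_one] using this
    have hsq : ∀ g, σ g * σ g - t g • σ g + d g • 1 = 0 := fun g => by
      have := congrArg (σ g * ·) (hσrel g)
      simp only [mul_add, mul_smul_comm, mul_one, ← map_mul, mul_inv_cancel, map_one] at this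
      rw [← this, map_mul]
      abel
    have hdet0 : ∀ g, (σ g).det ≠ 0 := fun g h0 => by
      have := congrArg Matrix.det (map_mul σ g g⁻¹)
      rw [mul_inv_cancel, map_one, Matrix.det_one, Matrix.det_mul, h0, zero_mul] at this
      exact one_ne_zero this
    have hns : ∀ g, (σ g 0 1 ≠ 0 ∨ σ g 1 0 ≠ 0 ∨ σ g 0 0 ≠ σ g 1 1) →
        (σ g).trace = t g ∧ (σ g).det = d g := by
      intro g hg
      have e00 := congrFun (congrFun (hsq g) 0) 0
      have e01 := congrFun (congrFun (hsq g) 0) 1
      have e10 := congrFun (congrFun (hsq g) 1) 0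
      have e11 := congrFun (congrFun (hsq g) 1) 1
      simp [Matrix.mul_apply, Fin.sum_univ_two] at e00 e01 e10 e11
      rw [Matrix.trace_fin_two, Matrix.det_fin_two]
      by_cases h01 : σ g 0 1 = 0
      · by_cases h10 : σ g 1 0 = 0
        · have hne : σ g 0 0 ≠ σ g 1 1 := by tauto
          rw [h01, h10] at e00 e11 ⊢
          have : (σ g 0 0 - σ g 1 1) * (σ g 0 0 + σ g 1 1 - t g) = 0 := by
            linear_combination e00 - e11
          have ht := (mul_eq_zero.1 this).resolve_left (sub_ne_zero.2 hne)
          exact ⟨sub_eq_zero.1 ht, by linear_combination (σ g 0 0) * ht - e00⟩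
        · have : σ g 1 0 * (σ g 0 0 + σ g 1 1 - t g) = 0 := by linear_combination e10
          have ht := (mul_eq_zero.1 this).resolve_left h10
          exact ⟨sub_eq_zero.1 ht, by linear_combination (σ g 0 0) * ht - e00⟩
      · have : σ g 0 1 * (σ g 0 0 + σ g 1 1 - t g) = 0 := by linear_combination e01
        have ht := (mul_eq_zero.1 this).resolve_left h01
        exact ⟨sub_eq_zero.1 ht, by linear_combination (σ g 0 0) * ht - e00⟩
    obtain ⟨k, hk⟩ : ∃ k, σ k 0 1 ≠ 0 := by
      by_contra hall
      push Not at hall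
      have : (Matrix.single 0 1 1 : Matrix (Fin 2) (Fin 2) F) 0 1 = 0 := by
        have hmem : (Matrix.single 0 1 1 : Matrix (Fin 2) (Fin 2) F) ∈
            Submodule.span F (Set.range σ) := by rw [hσspan]; trivial
        revert hmem
        generalize (Matrix.single 0 1 1 : Matrix (Fin 2) (Fin 2) F) = x
        intro hmem
        induction hmem using Submodule.span_induction with
        | mem x h => obtain ⟨g, rfl⟩ := h; exact hall g
        | zero => rfl
        | add a c _ _ ha hc => rw [Matrix.add_apply, ha, hc, add_zero]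
        | smul c a _ ha => rw [Matrix.smul_apply, ha, smul_zero]
      simp at this
    refine ⟨σ, fun g => ?_, fun g hg _ => ?_, Or.inr hσspan⟩
    · by_cases hg : σ g 0 1 ≠ 0 ∨ σ g 1 0 ≠ 0 ∨ σ g 0 0 ≠ σ g 1 1
      · exact hns g hg
      · push Not at hg
        obtain ⟨h01, h10, h11⟩ := hg
        have hgk : σ (g * k) 0 1 ≠ 0 := by
          have hc : σ g 0 0 ≠ 0 := fun h0 =>
            hdet0 g (by rw [Matrix.det_fin_two, ← h11, h0, h01]; ring)
          rw [map_mul, Matrix.mul_apply, Fin.sum_univ_two, h01, zero_mul, add_zero]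
          exact mul_ne_zero hc hk
        have h1 := (hns (g * k) (Or.inl hgk)).2
        rw [map_mul, Matrix.det_mul, map_mul d, (hns k (Or.inl hk)).2] at h1
        have hdet : (σ g).det = d g := mul_right_cancel₀ (hd0 k) h1
        refine ⟨?_, hdet⟩
        have e00 := congrFun (congrFun (hsq g) 0) 0
        simp [Matrix.mul_apply, Fin.sum_univ_two] at e00
        rw [← hdet, Matrix.det_fin_two, ← h11, h01] at e00
        rw [Matrix.trace_fin_two, ← h11]
        have hc : σ g 0 0 ≠ 0 := fun h0 =>
          hdet0 g (by rw [Matrix.det_fin_two, ← h11, h0, h01]; ring)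
        refine mul_left_cancel₀ hc ?_
        linear_combination e00
    · change LinearMap.toMatrix b b (π g) = 1
      rw [hker g hg, LinearMap.toMatrix_one]

end Fermat.Agent.DeligneSerre
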